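import Fermat.Agent.HeckeJ0.Lattice
import Fermat.Agent.HeckeFinite.WeightTwo
import Fermat.Agent.EigenRep.Interface

/-!
# Periods of weight two cusp forms in the coordinates of the lattice
-/

set_option autoImplicit false

noncomputable section

open Matrix.SpecialLinearGroup CongruenceSubgroup ModularCurve ModularCurve.Period
open scoped MatrixGroups

namespace Fermat.Agent.HeckeJ0

variable {N : ℕ}

theorem pow_twelve_eq_one_of_trace_sq_lt {g : SL(2, ℤ)}
    (h : (g : Matrix (Fin 2) (Fin 2) ℤ).trace ^ 2 < 4) : g ^ 12 = 1 := by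
  apply Subtype.ext
  rw [Matrix.SpecialLinearGroup.coe_pow, Matrix.SpecialLinearGroup.coe_one]
  set M : Matrix (Fin 2) (Fin 2) ℤ := (g : Matrix (Fin 2) (Fin 2) ℤ) with hM
  have hdet : M 0 0 * M 1 1 - M 0 1 * M 1 0 = 1 := by
    rw [← Matrix.det_fin_two]; exact g.det_coe
  have hsq : M * M = M.trace • M - 1 := by
    ext i j
    rw [Matrix.sub_apply, Matrix.smul_apply, smul_eq_mul, Matrix.mul_apply, Fin.sum_univ_two,
      Matrix.trace_fin_two]
    fin_cases i <;> fin_cases j <;> simp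
    all_goals first | linear_combination hdet | linear_combination -hdet | ring
  have ht : M.trace = -1 ∨ M.trace = 0 ∨ M.trace = 1 := by
    have h2 : -2 < M.trace := by nlinarith
    have h3 : M.trace < 2 := by nlinarith
    omega
  rcases ht with ht | ht | ht <;> rw [ht] at hsq
  · have h3 : M ^ 3 = 1 := by
      rw [pow_succ, pow_two, hsq]
      simp [sub_mul, hsq]
    rw [show 12 = 3 * 4 from rfl, pow_mul, h3, one_pow]
  · have h2 : M ^ 2 = -1 := by rw [pow_two, hsq]; simp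
    rw [show 12 = 2 * 6 from rfl, pow_mul, h2]
    simp [neg_one_pow_eq_pow_mod_two]
  · have h3 : M ^ 3 = -1 := by
      rw [pow_succ, pow_two, hsq]
      simp [sub_mul, hsq]
    rw [show 12 = 3 * 4 from rfl, pow_mul, h3]
    simp [neg_one_pow_eq_pow_mod_two]

theorem isGoodHom_of_parabolic {A : Type*} [AddCommGroup A] [IsAddTorsionFree A]
    {ψ : Additive (Gamma0 N) →+ A} (hψ : IsParabolicHom (Gamma0 N) ψ) : IsGoodHom N ψ := by
  intro g hg
  rcases (show ((g : SL(2, ℤ)) : Matrix (Fin 2) (Fin 2) ℤ).trace ^ 2 ≤ 4 from hg).eq_or_lt with h | h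
  · exact hψ g h
  · have h12 : g ^ 12 = 1 := Subtype.ext (by
      rw [SubmonoidClass.coe_pow, OneMemClass.coe_one]
      exact pow_twelve_eq_one_of_trace_sq_lt h)
    have : 12 • ψ (Additive.ofMul g) = 0 := by
      rw [← map_nsmul, ← ofMul_pow, h12, ofMul_one, map_zero]
    exact nsmul_right_injective (by norm_num : (12 : ℕ) ≠ 0) (this.trans (nsmul_zero 12).symm)

theorem trace_pow_sq_eq_four {g : SL(2, ℤ)}
    (h : (g : Matrix (Fin 2) (Fin 2) ℤ).trace ^ 2 = 4) (n : ℕ) :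
    ((g ^ n : SL(2, ℤ)) : Matrix (Fin 2) (Fin 2) ℤ).trace ^ 2 = 4 := by
  have key : ∀ k : ℕ,
      ((g ^ k : SL(2, ℤ)) : Matrix (Fin 2) (Fin 2) ℤ).trace * 2 ^ k =
        2 * (g : Matrix (Fin 2) (Fin 2) ℤ).trace ^ k := by
    set M : Matrix (Fin 2) (Fin 2) ℤ := (g : Matrix (Fin 2) (Fin 2) ℤ)
    have hdet : M 0 0 * M 1 1 - M 0 1 * M 1 0 = 1 := by
      rw [← Matrix.det_fin_two]; exact g.det_coe
    have hsq : M * M = M.trace • M - 1 := by
      ext i j
      rw [Matrix.sub_apply, Matrix.smul_apply, smul_eq_mul, Matrix.mul_apply, Fin.sum_univ_two,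
        Matrix.trace_fin_two]
      fin_cases i <;> fin_cases j <;> simp
      all_goals first | linear_combination hdet | linear_combination -hdet | ring
    intro k
    induction k using Nat.strong_induction_on with
    | _ k ih =>
      match k with
      | 0 => simp
      | 1 => simp [M]; ring
      | k + 2 =>
        have e : ((g ^ (k + 2) : SL(2, ℤ)) : Matrix (Fin 2) (Fin 2) ℤ).trace =
            M.trace * ((g ^ (k + 1) : SL(2, ℤ)) : Matrix (Fin 2) (Fin 2) ℤ).trace -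
              ((g ^ k : SL(2, ℤ)) : Matrix (Fin 2) (Fin 2) ℤ).trace := by
          simp only [Matrix.SpecialLinearGroup.coe_pow]
          show (M ^ (k + 2)).trace = M.trace * (M ^ (k + 1)).trace - (M ^ k).trace
          rw [pow_add, pow_two, hsq, mul_sub, mul_one, Algebra.mul_smul_comm, ← pow_succ,
            Matrix.trace_sub, Matrix.trace_smul, smul_eq_mul]
        have h1 := ih (k + 1) (by omega)
        have h0 := ih k (by omega)
        rw [pow_succ 2 k, pow_succ M.trace k] at h1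
        rw [e, pow_succ 2 (k + 1), pow_succ M.trace (k + 1), pow_succ 2 k, pow_succ M.trace k]
        linear_combination (2 * M.trace) * h1 - 4 * h0 + 2 * M.trace ^ k * h
  have h2 := key n
  have h3 : ((g : Matrix (Fin 2) (Fin 2) ℤ).trace ^ n) ^ 2 = 4 ^ n := by
    rw [← pow_mul, mul_comm, pow_mul, h]
  have h4 : ((2 : ℤ) ^ n) ^ 2 = 4 ^ n := by rw [← pow_mul, mul_comm, pow_mul]; norm_num
  have h5 : (4 : ℤ) ^ n ≠ 0 := by positivity
  refine mul_right_cancel₀ h5 ?_
  conv_lhs => rw [← h4, ← mul_pow, h2, mul_pow, h3]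
  ring

theorem isGoodHom_cohHecke {A : Type*} [AddCommGroup A] [IsAddTorsionFree A] (ℓ : ℕ)
    [Fact ℓ.Prime] [NeZero ℓ] {ψ : Additive (Gamma0 N) →+ A} (hψ : IsGoodHom N ψ) :
    IsGoodHom N (cohHecke ℓ ψ) := by
  intro g hg
  set k : ℕ := 12 * orderOf (permOf (ℓ := ℓ) g) with hk
  have hk0 : k ≠ 0 := Nat.mul_ne_zero (by norm_num) (orderOf_pos _).ne'
  have hperm : ∀ (m : ℕ) (x : Idx N ℓ), permOf (g ^ m) x = (permOf g ^ m) x := by
    intro m
    induction m with
    | zero =>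
      intro x
      refine (perm_gOf_unique (g := 1) ?_).1
      simp
    | succ m ih =>
      intro x
      rw [pow_succ, (permOf_mul _ _ _).1, ih, pow_succ', Equiv.Perm.mul_apply]
  have hsmall : ((g ^ k : Gamma0 N) : SL(2, ℤ)).val.trace ^ 2 ≤ 4 := by
    rcases (show ((g : SL(2, ℤ)) : Matrix (Fin 2) (Fin 2) ℤ).trace ^ 2 ≤ 4 from hg).eq_or_lt
      with h | h
    · rw [SubmonoidClass.coe_pow, trace_pow_sq_eq_four h]
    · rw [SubmonoidClass.coe_pow, hk, pow_mul, pow_twelve_eq_one_of_trace_sq_lt h, one_pow]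
      simp
  have hzero : cohHecke ℓ ψ (Additive.ofMul (g ^ k)) = 0 := by
    rw [cohHecke_apply]
    refine Finset.sum_eq_zero fun x _ => hψ _ ?_
    have hx : permOf (g ^ k) x = x := by
      rw [hperm, hk, mul_comm, pow_mul, pow_orderOf_eq_one, one_pow, Equiv.Perm.one_apply]
    have hr := rep_mul x (g ^ k)
    rw [hx] at hr
    have htr := congrArg (fun u : GL (Fin 2) ℝ => (u : Matrix (Fin 2) (Fin 2) ℝ).trace)
      (eq_mul_inv_of_mul_eq hr.symm)
    simp only [Units.val_mul, Matrix.trace_units_conj] at htr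
    simp only [Matrix.trace_fin_two, val_mapGL_apply] at htr
    show ((gOf x (g ^ k) : SL(2, ℤ)) : Matrix (Fin 2) (Fin 2) ℤ).trace ^ 2 ≤ 4
    rw [Matrix.trace_fin_two] at hsmall ⊢
    have htr' : ((gOf x (g ^ k) : Gamma0 N) : SL(2, ℤ)) 0 0 + ((gOf x (g ^ k) : Gamma0 N) : SL(2, ℤ)) 1 1
        = ((g ^ k : Gamma0 N) : SL(2, ℤ)) 0 0 + ((g ^ k : Gamma0 N) : SL(2, ℤ)) 1 1 := by
      exact_mod_cast htr
    rw [htr']
    exact hsmall
  rw [ofMul_pow, map_nsmul] at hzero
  exact nsmul_right_injective hk0 (hzero.trans (nsmul_zero k).symm)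

variable (N) [NeZero N]

/-- periods in coordinates -/
def perMap : CuspForm (Gamma0 N) 2 →ₗ[ℂ] (Fin (rk N) → ℂ) where
  toFun f := coords N (HeckeFinite.periodMapLin N f)
  map_add' f g := by rw [map_add, map_add]
  map_smul' c f := by rw [map_smul]; rfl

theorem isGoodHom_periodMap (f : CuspForm (Gamma0 N) 2) : IsGoodHom N (periodMap N f) :=
  isGoodHom_of_parabolic (mem_parabolicHoms_iff.mp (HeckeFinite.periodMap_mem_parabolicHoms f))

theorem perMap_injective : Function.Injective (perMap N) := by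
  intro f g h
  apply HeckeFinite.periodMap_injective N
  rw [← ofCoords_coords_complex N (isGoodHom_periodMap N f), ← ofCoords_coords_complex N (isGoodHom_periodMap N g)]
  exact congrArg (ofCoords N) h

theorem perMap_hOp (ℓ : ℕ) [Fact ℓ.Prime] [NeZero ℓ] (f : CuspForm (Gamma0 N) 2) :
    perMap N (hOp N ℓ f) =
      Matrix.mulVec ((heckeMat N ℓ).map (Int.cast : ℤ → ℂ)) (perMap N f) := by
  show coords N (periodMap N (hOp N ℓ f)) = _
  obtain ⟨F, hF⟩ := HeckeFinite.exists_hasEquivariantPrimitive f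
  obtain ⟨F', hF'⟩ := HeckeFinite.exists_hasEquivariantPrimitive (hOp N ℓ f)
  rw [HeckeFinite.periodMap_eq hF', periodMap_hOp f hF hF', ← HeckeFinite.periodMap_eq hF,
    ← ofCoords_coords_complex N (isGoodHom_periodMap N f), coords_cohHecke_ofCoords]
  rfl

/-- the matrix attached to a prime -/
def heckeMatAt (ℓ : Nat.Primes) : Matrix (Fin (rk N)) (Fin (rk N)) ℤ :=
  haveI : Fact (ℓ : ℕ).Prime := ⟨ℓ.2⟩
  haveI : NeZero (ℓ : ℕ) := ⟨ℓ.2.ne_zero⟩
  heckeMat N (ℓ : ℕ)

theorem perMap_formsOp (ℓ : Nat.Primes) (f : CuspForm (Gamma0 N) 2) :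
    perMap N (EigenRep.formsOp N ℓ f) =
      Matrix.mulVec ((heckeMatAt N ℓ).map (Int.cast : ℤ → ℂ)) (perMap N f) :=
  haveI : Fact (ℓ : ℕ).Prime := ⟨ℓ.2⟩
  haveI : NeZero (ℓ : ℕ) := ⟨ℓ.2.ne_zero⟩
  perMap_hOp N (ℓ : ℕ) f

omit [NeZero N] in
theorem isGoodHom_map {A B : Type*} [AddCommGroup A] [AddCommGroup B] (f : A →+ B)
    {ψ : Additive (Gamma0 N) →+ A} (hψ : IsGoodHom N ψ) : IsGoodHom N (f.comp ψ) := by
  intro g hg
  rw [AddMonoidHom.comp_apply, hψ g hg, map_zero]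

theorem heckeMat_comm (ℓ m : ℕ) [Fact ℓ.Prime] [NeZero ℓ] [Fact m.Prime] [NeZero m] :
    heckeMat N ℓ * heckeMat N m = heckeMat N m * heckeMat N ℓ := by
  have key : ∀ (l : ℕ) [Fact l.Prime] [NeZero l] (a : Fin (rk N) → ℤ),
      coords N (cohHecke l (ofCoords N a)) = Matrix.mulVec (heckeMat N l) a := fun l _ _ a => by
    rw [coords_cohHecke_ofCoords]
    congr 1
  refine Matrix.ext_of_mulVec_single fun i => ?_
  rw [← Matrix.mulVec_mulVec, ← Matrix.mulVec_mulVec, ← key m, ← key ℓ,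
    ofCoords_coords_int N (isGoodHom_cohHecke m (isGoodHom_ofCoords N _)),
    ← key ℓ, ← key m,
    ofCoords_coords_int N (isGoodHom_cohHecke ℓ (isGoodHom_ofCoords N _)), cohHecke_comm]

/-- The integral Hecke matrices commute. -/
theorem heckeMatAt_comm (ℓ m : Nat.Primes) :
    heckeMatAt N ℓ * heckeMatAt N m = heckeMatAt N m * heckeMatAt N ℓ :=
  haveI : Fact (ℓ : ℕ).Prime := ⟨ℓ.2⟩
  haveI : NeZero (ℓ : ℕ) := ⟨ℓ.2.ne_zero⟩
  haveI : Fact (m : ℕ).Prime := ⟨m.2⟩
  haveI : NeZero (m : ℕ) := ⟨m.2.ne_zero⟩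
  heckeMat_comm N (ℓ : ℕ) (m : ℕ)

end Fermat.Agent.HeckeJ0
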