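import Fermat.Prelude.Def_AlgebraicCurve_Correspondence

/-!
# Generic facts about divisor correspondences

* the correspondence of a principal divisor is the divisor of a norm;
* two correspondences commute on all divisors if they commute on functions;
* correspondences commute with intertwining semilinear automorphisms.
-/

set_option autoImplicit false
set_option linter.style.haveILetI false

noncomputable section

open AlgebraicCurve

namespace Fermat.Agent.HeckeJ0

variable {K F F' F'' : Type*} [Field K] [Field F] [Field F'] [Field F'']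
  [Algebra K F] [Algebra K F'] [Algebra K F'']

/-- the norm along a field embedding -/
def normAlong (ψ : F →ₐ[K] F') (y : F') : F :=
  letI := algebraAlong ψ
  Algebra.norm F y

theorem normAlong_ne_zero {ψ : F →ₐ[K] F'} (hfin : FiniteAlong K ψ) {y : F'} (hy : y ≠ 0) :
    normAlong ψ y ≠ 0 := by
  letI := algebraAlong ψ
  haveI : Module.Finite F F' := hfin
  exact Algebra.norm_ne_zero_iff.mpr hy

/-- weak approximation for places -/
def HasApproximation (K F : Type*) [Field K] [Field F] [Algebra K F] : Prop :=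
  ∀ (S : Finset (Place K F)) (D : Place K F → ℤ), ∃ f : F, f ≠ 0 ∧ ∀ v ∈ S, v.ord f = D v

section Correspondence

variable [HasPrincipalDivisors K F'] (φ ψ : F →ₐ[K] F')
  (hφ : φ.toRingHom.IsIntegral) (hψ : ψ.toRingHom.IsIntegral)

theorem correspondence_apply_eq_ord (hfin : FiniteAlong K ψ) (hN : NormFormulaAlong K ψ hfin)
    {f : F} (hf : f ≠ 0) {D : Divisor K F} (hD : ∀ v, D v = v.ord f) (v : Place K F) :
    Divisor.correspondence φ ψ hφ hψ D v = v.ord (normAlong ψ (φ f)) := by
  have hpull : ∀ w, Divisor.pullbackAlong φ hφ D w = w.ord (φ f) := fun w => by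
    rw [Divisor.pullbackAlong_apply, hD, ← Place.ord_restrictAlong]
  exact hN (φ f) ((map_ne_zero φ).mpr hf) _ hpull v

omit [HasPrincipalDivisors K F'] in
theorem pushforwardAlong_apply_eq_zero {E : Divisor K F'} {v : Place K F}
    (hE : ∀ w, w.restrictAlong ψ hψ = v → E w = 0) :
    Divisor.pushforwardAlong ψ hψ E v = 0 := by
  classical
  letI := algebraAlong ψ
  haveI := isScalarTower_along ψ
  haveI := isIntegral_along ψ hψ
  show Divisor.pushforward F E v = 0
  rw [Divisor.pushforward_apply]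
  refine Finset.sum_eq_zero fun w _ => ?_
  split_ifs with h
  · rw [hE w h, zero_mul]
  · rfl

/-- the places of `F` that the value of a correspondence at `v` depends on -/
def dependsOn (v : Place K F) : Finset (Place K F) := by
  classical
  exact (Place.fiberAlong ψ hψ v).image fun w => w.restrictAlong φ hφ

theorem correspondence_congr {D D' : Divisor K F} {v : Place K F}
    (h : ∀ u ∈ dependsOn φ ψ hφ hψ v, D u = D' u) :
    Divisor.correspondence φ ψ hφ hψ D v = Divisor.correspondence φ ψ hφ hψ D' v := by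
  classical
  rw [← sub_eq_zero, ← Finsupp.sub_apply, ← map_sub, Divisor.correspondence_apply]
  refine pushforwardAlong_apply_eq_zero ψ hψ fun w hw => ?_
  rw [Divisor.pullbackAlong_apply, Finsupp.sub_apply, h, sub_self, mul_zero]
  exact Finset.mem_image.mpr ⟨w, Place.mem_fiberAlong.mpr hw, rfl⟩

end Correspondence

section Comm

variable [HasPrincipalDivisors K F] [HasPrincipalDivisors K F'] [HasPrincipalDivisors K F'']
  {φ ψ : F →ₐ[K] F'} {φ₂ ψ₂ : F →ₐ[K] F''}
  (hφ : φ.toRingHom.IsIntegral) (hψ : ψ.toRingHom.IsIntegral)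
  (hφ₂ : φ₂.toRingHom.IsIntegral) (hψ₂ : ψ₂.toRingHom.IsIntegral)

theorem correspondence_comm (happ : HasApproximation K F)
    (hfin : FiniteAlong K ψ) (hN : NormFormulaAlong K ψ hfin)
    (hfin₂ : FiniteAlong K ψ₂) (hN₂ : NormFormulaAlong K ψ₂ hfin₂)
    (h : ∀ f : F, f ≠ 0 →
      normAlong ψ₂ (φ₂ (normAlong ψ (φ f))) = normAlong ψ (φ (normAlong ψ₂ (φ₂ f))))
    (D : Divisor K F) :
    Divisor.correspondence φ₂ ψ₂ hφ₂ hψ₂ (Divisor.correspondence φ ψ hφ hψ D) =
      Divisor.correspondence φ ψ hφ hψ (Divisor.correspondence φ₂ ψ₂ hφ₂ hψ₂ D) := by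
  classical
  ext v
  let U : Finset (Place K F) :=
    (dependsOn φ₂ ψ₂ hφ₂ hψ₂ v).biUnion (dependsOn φ ψ hφ hψ) ∪
      (dependsOn φ ψ hφ hψ v).biUnion (dependsOn φ₂ ψ₂ hφ₂ hψ₂)
  obtain ⟨f, hf, hfU⟩ := happ U D
  obtain ⟨E, hE, -⟩ := HasPrincipalDivisors.exists_divisor (K := K) f hf
  have hDE : ∀ u ∈ U, D u = E u := fun u hu => by rw [hE, hfU u hu]
  have h₁ : Divisor.correspondence φ₂ ψ₂ hφ₂ hψ₂ (Divisor.correspondence φ ψ hφ hψ D) v =
      v.ord (normAlong ψ₂ (φ₂ (normAlong ψ (φ f)))) := by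
    rw [← correspondence_apply_eq_ord φ₂ ψ₂ hφ₂ hψ₂ hfin₂ hN₂
      (normAlong_ne_zero hfin ((map_ne_zero φ).mpr hf))
      (correspondence_apply_eq_ord φ ψ hφ hψ hfin hN hf hE)]
    exact correspondence_congr φ₂ ψ₂ hφ₂ hψ₂ fun a ha => correspondence_congr φ ψ hφ hψ fun u hu =>
      hDE u (Finset.mem_union_left _ (Finset.mem_biUnion.mpr ⟨a, ha, hu⟩))
  have h₂ : Divisor.correspondence φ ψ hφ hψ (Divisor.correspondence φ₂ ψ₂ hφ₂ hψ₂ D) v =
      v.ord (normAlong ψ (φ (normAlong ψ₂ (φ₂ f)))) := by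
    rw [← correspondence_apply_eq_ord φ ψ hφ hψ hfin hN
      (normAlong_ne_zero hfin₂ ((map_ne_zero φ₂).mpr hf))
      (correspondence_apply_eq_ord φ₂ ψ₂ hφ₂ hψ₂ hfin₂ hN₂ hf hE)]
    exact correspondence_congr φ ψ hφ hψ fun a ha => correspondence_congr φ₂ ψ₂ hφ₂ hψ₂ fun u hu =>
      hDE u (Finset.mem_union_right _ (Finset.mem_biUnion.mpr ⟨a, ha, hu⟩))
  rw [h₁, h₂, h f hf]

theorem pic0_correspondence_comm (happ : HasApproximation K F)
    (hFI : FundamentalIdentityAlong K φ hφ) (hFI₂ : FundamentalIdentityAlong K φ₂ hφ₂)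
    (hfin : FiniteAlong K ψ) (hN : NormFormulaAlong K ψ hfin)
    (hfin₂ : FiniteAlong K ψ₂) (hN₂ : NormFormulaAlong K ψ₂ hfin₂)
    (h : ∀ f : F, f ≠ 0 →
      normAlong ψ₂ (φ₂ (normAlong ψ (φ f))) = normAlong ψ (φ (normAlong ψ₂ (φ₂ f))))
    (x : Pic0 K F) :
    Pic0.correspondence φ₂ ψ₂ hφ₂ hψ₂ hFI₂ hfin₂ hN₂
        (Pic0.correspondence φ ψ hφ hψ hFI hfin hN x) =
      Pic0.correspondence φ ψ hφ hψ hFI hfin hN
        (Pic0.correspondence φ₂ ψ₂ hφ₂ hψ₂ hFI₂ hfin₂ hN₂ x) := by
  obtain ⟨D, rfl⟩ := Pic0.mk_surjective x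
  simp only [Pic0.correspondence_mk]
  exact congrArg Pic0.mk (Subtype.ext
    (correspondence_comm hφ hψ hφ₂ hψ₂ happ hfin hN hfin₂ hN₂ h D))

end Comm

section Intertwine

variable {φ ψ : F →ₐ[K] F'} {g : SemilinearAut K F} {g' : SemilinearAut K F'}

theorem restrictAlong_smul (hφ : φ.toRingHom.IsIntegral)
    (hg : SemilinearAut.IntertwinesAlong φ.toRingHom g g') (w : Place K F') :
    (g' • w).restrictAlong φ hφ = g • w.restrictAlong φ hφ := by
  refine Place.ext (SetLike.ext fun x => ?_)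
  show φ x ∈ (g' • w).toValuationSubring ↔ x ∈ (g • w.restrictAlong φ hφ).toValuationSubring
  rw [SemilinearAut.smul_toValuationSubring, SemilinearAut.smul_toValuationSubring,
    ValuationSubring.mem_pointwise_smul_iff_inv_smul_mem,
    ValuationSubring.mem_pointwise_smul_iff_inv_smul_mem]
  show _ ↔ φ (g⁻¹ • x) ∈ w.toValuationSubring
  rw [show φ (g⁻¹ • x) = g'⁻¹ • φ x from (hg.inv x).symm]

theorem ramificationIndexAlong_smul (hφ : φ.toRingHom.IsIntegral)
    (hg : SemilinearAut.IntertwinesAlong φ.toRingHom g g') (w : Place K F') :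
    (g' • w).ramificationIndexAlong φ = w.ramificationIndexAlong φ := by
  obtain ⟨π, hπ⟩ :=
    IsDiscreteValuationRing.exists_irreducible (w.restrictAlong φ hφ).toValuationSubring
  have h1 := Place.ord_restrictAlong φ hφ (g' • w) (g • (π : F))
  rw [restrictAlong_smul hφ hg, SemilinearAut.ord_smul,
    show φ (g • (π : F)) = g' • φ (π : F) from (hg _).symm, SemilinearAut.ord_smul,
    Place.ord_restrictAlong φ hφ, Place.ord_coe_irreducible _ hπ, mul_one, mul_one] at h1
  exact_mod_cast h1.symm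

theorem inertiaDegAlong_eq_one (hψ : ψ.toRingHom.IsIntegral) (hdeg : ∀ v : Place K F, v.deg = 1)
    (hdeg' : ∀ w : Place K F', w.deg = 1) (w : Place K F') : w.inertiaDegAlong ψ hψ = 1 := by
  letI := algebraAlong ψ
  haveI := isScalarTower_along ψ
  haveI := isIntegral_along ψ hψ
  show w.inertiaDeg F = 1
  have := w.deg_restrict_mul_inertiaDeg (F := F)
  rwa [hdeg, hdeg', one_mul] at this

theorem pushforwardAlong_smul (hψ : ψ.toRingHom.IsIntegral)
    (hdeg : ∀ v : Place K F, v.deg = 1) (hdeg' : ∀ w : Place K F', w.deg = 1)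
    (hg : SemilinearAut.IntertwinesAlong ψ.toRingHom g g') (E : Divisor K F') :
    Divisor.pushforwardAlong ψ hψ (g' • E) = g • Divisor.pushforwardAlong ψ hψ E := by
  induction E using Finsupp.induction with
  | zero => simp
  | single_add w n E _ _ ih =>
    rw [smul_add, map_add, map_add, smul_add, ih, SemilinearAut.smul_single,
      Divisor.pushforwardAlong_single, Divisor.pushforwardAlong_single,
      inertiaDegAlong_eq_one hψ hdeg hdeg', inertiaDegAlong_eq_one hψ hdeg hdeg',
      restrictAlong_smul hψ hg, SemilinearAut.smul_single]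

variable [HasPrincipalDivisors K F']

theorem pullbackAlong_smul (hφ : φ.toRingHom.IsIntegral)
    (hg : SemilinearAut.IntertwinesAlong φ.toRingHom g g') (D : Divisor K F) :
    Divisor.pullbackAlong φ hφ (g • D) = g' • Divisor.pullbackAlong φ hφ D := by
  ext w
  obtain ⟨w, rfl⟩ := MulAction.surjective g' w
  rw [SemilinearAut.divisor_smul_apply_smul, Divisor.pullbackAlong_apply,
    Divisor.pullbackAlong_apply, ramificationIndexAlong_smul hφ hg, restrictAlong_smul hφ hg,
    SemilinearAut.divisor_smul_apply_smul]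

/-- Correspondences on classes commute with intertwined semilinear automorphisms. -/
theorem pic0_correspondence_smul (hφ : φ.toRingHom.IsIntegral) (hψ : ψ.toRingHom.IsIntegral)
    (hdeg : ∀ v : Place K F, v.deg = 1) (hdeg' : ∀ w : Place K F', w.deg = 1)
    (hgφ : SemilinearAut.IntertwinesAlong φ.toRingHom g g')
    (hgψ : SemilinearAut.IntertwinesAlong ψ.toRingHom g g')
    (hFI : FundamentalIdentityAlong K φ hφ)
    (hfin : FiniteAlong K ψ) (hN : NormFormulaAlong K ψ hfin) (x : Pic0 K F) :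
    Pic0.correspondence φ ψ hφ hψ hFI hfin hN (g • x) =
      g • Pic0.correspondence φ ψ hφ hψ hFI hfin hN x := by
  obtain ⟨D, rfl⟩ := Pic0.mk_surjective x
  rw [SemilinearAut.pic0_smul_mk, Pic0.correspondence_mk, Pic0.correspondence_mk,
    SemilinearAut.pic0_smul_mk]
  refine congrArg Pic0.mk (Subtype.ext ?_)
  show Divisor.correspondence φ ψ hφ hψ (g • (D : Divisor K F)) =
    g • Divisor.correspondence φ ψ hφ hψ (D : Divisor K F)
  rw [Divisor.correspondence_apply, Divisor.correspondence_apply, pullbackAlong_smul hφ hgφ,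
    pushforwardAlong_smul hψ hdeg hdeg' hgψ]

end Intertwine

end Fermat.Agent.HeckeJ0
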