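import Fermat.Agent.HeckeJ0.Model
import Fermat.Agent.HeckeJ0.Correspondence
import Fermat.Agent.FunctionFieldRR.PushPull
import Fermat.Agent.FunctionFieldRR.Approximation
import Fermat.Agent.EigenRep.Interface

/-!
# The Hecke operators on `J₀(N)`: inputs, commutation, Galois equivariance
-/

set_option autoImplicit false
set_option linter.style.haveILetI false

noncomputable section

open AlgebraicCurve ModularCurve

namespace Fermat.Agent.HeckeJ0

local notation "ℚbar" => AlgebraicClosure ℚ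

variable (N ℓ : ℕ) [NeZero N] [NeZero ℓ]

instance instIsFunctionFieldBar (M : ℕ) [NeZero M] :
    FunctionFieldRR.IsFunctionField ℚbar (modularFunctionFieldBar M) :=
  isFunctionField_bar M

theorem hasPrincipalDivisors_bar (M : ℕ) [NeZero M] :
    HasPrincipalDivisors ℚbar (modularFunctionFieldBar M) :=
  FunctionFieldRR.hasPrincipalDivisors

theorem hasApproximation_bar (M : ℕ) [NeZero M] :
    HasApproximation ℚbar (modularFunctionFieldBar M) :=
  fun S D => FunctionFieldRR.exists_ord_eq S D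

/-- `α` is integral. -/
theorem alphaIntegral : HeckeAlphaBarIntegral ℚbar N ℓ :=
  isIntegral_of_isFunctionField (heckeAlphaBar ℚbar N ℓ)

/-- `β` is integral. -/
theorem betaIntegral : HeckeBetaBarIntegral ℚbar N ℓ :=
  isIntegral_of_isFunctionField (heckeBetaBar ℚbar N ℓ)

theorem alphaFinite : FiniteAlong ℚbar (heckeAlphaBar ℚbar N ℓ) :=
  finiteAlong_of_isFunctionField (heckeAlphaBar ℚbar N ℓ)

theorem alphaNormFormula :
    NormFormulaAlong ℚbar (heckeAlphaBar ℚbar N ℓ) (alphaFinite N ℓ) :=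
  FunctionFieldRR.normFormulaAlong (heckeAlphaBar ℚbar N ℓ) (alphaFinite N ℓ)

theorem betaFundamental [HasPrincipalDivisors ℚbar (modularFunctionFieldBar (N * ℓ))] :
    FundamentalIdentityAlong ℚbar (heckeBetaBar ℚbar N ℓ) (betaIntegral N ℓ) :=
  FunctionFieldRR.fundamentalIdentityAlong (heckeBetaBar ℚbar N ℓ) (betaIntegral N ℓ)
    (finiteAlong_of_isFunctionField _)

/-- All inputs of the Hecke correspondences hold over `ℚ̄`. -/
theorem heckeInputsAlong : HeckeInputsAlong ℚbar N ℓ :=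
  haveI := hasPrincipalDivisors_bar (N * ℓ)
  heckeInputsAlong_intro (alphaIntegral N ℓ) (betaIntegral N ℓ) (betaFundamental N ℓ)
    (alphaFinite N ℓ) (alphaNormFormula N ℓ)

theorem heckeOperatorAlong_bar_eq :
    haveI := hasPrincipalDivisors_bar (N * ℓ)
    heckeOperatorAlong ℚbar N ℓ =
      Pic0.correspondence (heckeBetaBar ℚbar N ℓ) (heckeAlphaBar ℚbar N ℓ) (betaIntegral N ℓ)
        (alphaIntegral N ℓ) (betaFundamental N ℓ) (alphaFinite N ℓ) (alphaNormFormula N ℓ) :=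
  haveI := hasPrincipalDivisors_bar (N * ℓ)
  heckeOperatorAlong_eq (alphaIntegral N ℓ) (betaIntegral N ℓ) (betaFundamental N ℓ)
    (alphaFinite N ℓ) (alphaNormFormula N ℓ)

/-- The Hecke operators on `J₀(N)` commute. -/
theorem heckeOperatorsCommuteBar : HeckeOperatorsCommuteBar N := by
  intro ℓ ℓ'
  haveI : NeZero (ℓ : ℕ) := ⟨ℓ.2.ne_zero⟩
  haveI : NeZero (ℓ' : ℕ) := ⟨ℓ'.2.ne_zero⟩
  haveI : Fact (ℓ : ℕ).Prime := ⟨ℓ.2⟩
  haveI : Fact (ℓ' : ℕ).Prime := ⟨ℓ'.2⟩
  haveI := hasPrincipalDivisors_bar (N * (ℓ : ℕ))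
  haveI := hasPrincipalDivisors_bar (N * (ℓ' : ℕ))
  refine LinearMap.ext fun x => ?_
  rw [Module.End.mul_apply, Module.End.mul_apply, heckeOperatorBar_apply, heckeOperatorBar_apply,
    heckeOperatorBar_apply, heckeOperatorBar_apply, heckeOperatorAlong_bar_eq N (ℓ : ℕ),
    heckeOperatorAlong_bar_eq N (ℓ' : ℕ)]
  haveI := hasPrincipalDivisors_bar N
  exact pic0_correspondence_comm (betaIntegral N (ℓ' : ℕ)) (alphaIntegral N (ℓ' : ℕ))
    (betaIntegral N (ℓ : ℕ)) (alphaIntegral N (ℓ : ℕ)) (hasApproximation_bar N) (betaFundamental N (ℓ' : ℕ))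
    (betaFundamental N (ℓ : ℕ)) (alphaFinite N (ℓ' : ℕ)) (alphaNormFormula N (ℓ' : ℕ))
    (alphaFinite N (ℓ : ℕ)) (alphaNormFormula N (ℓ : ℕ))
    (fun f _ => normAlong_beta_comm N (ℓ' : ℕ) (ℓ : ℕ) f) x

/-- The Hecke operators commute with the Galois action. -/
theorem heckeOperatorAlong_smul (σ : ℚbar ≃ₐ[ℚ] ℚbar)
    (x : Pic0 ℚbar (modularFunctionFieldBar N)) :
    heckeOperatorAlong ℚbar N ℓ (σ • x) = σ • heckeOperatorAlong ℚbar N ℓ x := by
  haveI := hasPrincipalDivisors_bar (N * ℓ)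
  rw [heckeOperatorAlong_bar_eq, galois_smul_pic0_def, galois_smul_pic0_def]
  exact pic0_correspondence_smul (betaIntegral N ℓ) (alphaIntegral N ℓ)
    (fun v => FunctionFieldRR.deg_eq_one v) (fun w => FunctionFieldRR.deg_eq_one w)
    (intertwines_heckeBetaBar N ℓ σ) (intertwines_heckeAlphaBar N ℓ σ)
    (betaFundamental N ℓ) (alphaFinite N ℓ) (alphaNormFormula N ℓ) x

/-- The Hecke operators on `J₀(N)` commute with the Galois action. -/
theorem heckeGaloisEquivariant : EigenRep.HeckeGaloisEquivariant N := by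
  intro σ ℓ x
  haveI : NeZero (ℓ : ℕ) := ⟨ℓ.2.ne_zero⟩
  rw [heckeOperatorBar_apply, heckeOperatorBar_apply]
  exact heckeOperatorAlong_smul N (ℓ : ℕ) σ x

end Fermat.Agent.HeckeJ0
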