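import Fermat.Agent.HeckeJ0.Assemble
import Fermat.Agent.J0Torsion.Main

/-!
# The Hecke module model of the `p`-power torsion of `J₀(N)`
-/

set_option autoImplicit false
set_option linter.style.haveILetI false

noncomputable section

open CongruenceSubgroup
open scoped MatrixGroups
open AlgebraicCurve ModularCurve

namespace Fermat.Agent.HeckeJ0

local notation "ℚbar" => AlgebraicClosure ℚ

/-- The monodromy isomorphism characterises every representative and every function. -/
theorem isMonodromy_torsionEquiv (N n : ℕ) [NeZero N] [NeZero n]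
    (x : Pic0.torsion ℚbar (modularFunctionFieldBar N) n) :
    IsMonodromy J0Torsion.jEmb n (x : JZero N)
      (J0Torsion.torsionEquiv N n x : Additive (Gamma0 N) →+ ZMod n) := by
  intro D f hD hf hdiv
  obtain ⟨χ, hgood, hχ⟩ := J0Torsion.exists_char_of_dvd_ord J0Torsion.jEmb (NeZero.ne n) hf
    fun P => ⟨_, (hdiv P).symm⟩
  obtain ⟨φ, rfl⟩ := J0Torsion.exists_chiOf_eq hgood hχ.pow_eq_one
  rw [J0Torsion.torsionEquiv_eq ⟨D, f, hD, hdiv, hχ⟩]
  exact hχ

/-- The Hecke module model of the `p`-power torsion of `J₀(N)`. -/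
def torsionHeckeModel (N p : ℕ) [NeZero N] [Fact p.Prime] : EigenRep.TorsionHeckeModel N p :=
  torsionHeckeModelOf J0Torsion.jEmb p (fun n => J0Torsion.torsionEquiv N (p ^ n))
    (fun n => isMonodromy_torsionEquiv N (p ^ n))

end Fermat.Agent.HeckeJ0
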