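import Fermat.Agent.FunctionFieldRR.PushPull
import Fermat.Prelude.Def_ModularCurve_HeckeModule
import Fermat.Agent.Reduction.Instances

/-!
# Finiteness along maps of function fields, Galois intertwining of the degeneracy maps
-/

set_option autoImplicit false

noncomputable section

open AlgebraicCurve ModularCurve IntermediateField
open scoped Fermat.Agent.Reduction

namespace Fermat.Agent.HeckeJ0

section Finite

variable {K F F' : Type*} [Field K] [Field F] [Field F'] [Algebra K F] [Algebra K F']
  [FunctionFieldRR.IsFunctionField K F] [FunctionFieldRR.IsFunctionField K F']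

/-- An embedding of function fields is finite. -/
theorem finiteAlong_of_isFunctionField (φ : F →ₐ[K] F') : FiniteAlong K φ :=
  FunctionFieldRR.finiteAlong φ

theorem isIntegral_of_isFunctionField (φ : F →ₐ[K] F') : φ.toRingHom.IsIntegral := by
  have h := finiteAlong_of_isFunctionField φ
  exact RingHom.IsIntegral.of_finite h

end Finite

section Galois

variable {L : Type*} [Field L] [Algebra ℚ L] (N ℓ : ℕ) [NeZero N] [NeZero ℓ]

/-- `α` commutes with the arithmetic Galois action. -/
theorem intertwines_heckeAlphaBar (σ : L ≃ₐ[ℚ] L) :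
    SemilinearAut.IntertwinesAlong (heckeAlphaBar L N ℓ).toRingHom
      (arithmeticGalois (modularFunctionFieldFull N) σ)
      (arithmeticGalois (modularFunctionFieldFull (N * ℓ)) σ) := fun x => by
  refine Subtype.ext ?_
  show coeffMap (σ : L →+* L) (heckeAlphaBar L N ℓ x : LaurentSeries L) = _
  rw [coe_heckeAlphaBar]
  rfl

omit [NeZero N] in
/-- `β` commutes with the arithmetic Galois action. -/
theorem intertwines_heckeBetaBar (σ : L ≃ₐ[ℚ] L) :
    SemilinearAut.IntertwinesAlong (heckeBetaBar L N ℓ).toRingHom
      (arithmeticGalois (modularFunctionFieldFull N) σ)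
      (arithmeticGalois (modularFunctionFieldFull (N * ℓ)) σ) := fun x => by
  refine Subtype.ext ?_
  show coeffMap (σ : L →+* L) (qExpand L ℓ (x : LaurentSeries L)) =
    qExpand L ℓ (coeffMap (σ : L →+* L) (x : LaurentSeries L))
  ext k
  by_cases hk : (ℓ : ℤ) ∣ k
  · obtain ⟨m, rfl⟩ := hk
    rw [coeffMap_coeff, qExpand_coeff_mul, qExpand_coeff_mul, coeffMap_coeff]
  · rw [coeffMap_coeff, qExpand_coeff_of_not_dvd ℓ _ hk, qExpand_coeff_of_not_dvd ℓ _ hk, map_zero]

end Galois

end Fermat.Agent.HeckeJ0
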