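import Fermat.Agent.HeckeJ0.Norm
import Fermat.Agent.HeckeJ0.Finite
import Fermat.Agent.X0Analytic.Degree
import Fermat.Agent.Gamma0Count.Index
import Mathlib.Analysis.Complex.Polynomial.Basic
import Mathlib.FieldTheory.IsAlgClosed.AlgebraicClosure

/-!
# The meromorphic model of the function fields and the degree of `α`
-/

set_option autoImplicit false
set_option linter.style.haveILetI false

noncomputable section

open scoped MatrixGroups
open AlgebraicCurve ModularCurve
open Fermat.Agent.X0Analytic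

namespace Fermat.Agent.HeckeJ0

local notation "ℚbar" => AlgebraicClosure ℚ

/-- an embedding of `ℚ̄` into `ℂ` -/
def qbarEmb : ℚbar →+* ℂ :=
  haveI : Algebra.IsAlgebraic ℚ ℚbar := AlgebraicClosure.isAlgebraic ℚ
  (IsAlgClosed.lift (R := ℚ) (S := ℚbar) (M := ℂ)).toRingHom

/-- the model attached to an embedding of the constants -/
def merModel (φ : ℚbar →+* ℂ) : MerModel where
  emb := φ
  ι M _ := toMer (L := ℚbar) (N := M) φ
  ι_const M _ c := by
    refine (fieldHom_algebraMap (L := ℚbar) (N := M) φ _ _ c).trans ?_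
    show algebraMap Hol Mer (modToHol M (algebraMap ℂ (modFun M) (φ c))) = _
    rw [AlgHom.commutes]
  ι_jGen M _ d _ hd := by
    let a : algGen ℚbar M := ⟨jL ℚbar d, Algebra.subset_adjoin ⟨d, inferInstance, hd, rfl⟩⟩
    show toMer φ (algToField ℚbar M a) = _
    rw [toMer, fieldHom_algToField, toModFun_jL φ hd]
    rfl

theorem isFunctionField_bar (M : ℕ) [NeZero M] :
    FunctionFieldRR.IsFunctionField ℚbar (modularFunctionFieldBar M) :=
  ⟨⟨jEl ℚbar M, transcendental_jEl qbarEmb, finiteDimensional_jField qbarEmb⟩⟩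

/-- the degree of `φ` is the quotient of the degrees over `K(x)` and `K(φ x)` -/
theorem finrank_jField_mul {K F F' : Type*} [Field K] [Field F] [Field F'] [Algebra K F]
    [Algebra K F'] (φ : F →ₐ[K] F') (x : F) :
    Module.finrank (IntermediateField.adjoin K ({x} : Set F)) F * finrankAlong K φ =
      Module.finrank (IntermediateField.adjoin K ({φ x} : Set F')) F' := by
  have hmap : (IntermediateField.adjoin K ({x} : Set F)).map φ =
      IntermediateField.adjoin K ({φ x} : Set F') := by
    rw [IntermediateField.adjoin_map, Set.image_singleton]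
  letI := algebraAlong φ
  let e : IntermediateField.adjoin K ({x} : Set F) ≃+* IntermediateField.adjoin K ({φ x} : Set F') :=
    (((IntermediateField.adjoin K ({x} : Set F)).equivMap φ).trans
      (IntermediateField.equivOfEq hmap)).toRingEquiv
  letI : Algebra (IntermediateField.adjoin K ({x} : Set F)) F' :=
    (φ.toRingHom.comp (algebraMap (IntermediateField.adjoin K ({x} : Set F)) F)).toAlgebra
  haveI : IsScalarTower (IntermediateField.adjoin K ({x} : Set F)) F F' :=
    IsScalarTower.of_algebraMap_eq fun _ => rfl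
  have heq : Module.finrank (IntermediateField.adjoin K ({x} : Set F)) F' =
      Module.finrank (IntermediateField.adjoin K ({φ x} : Set F')) F' :=
    Algebra.finrank_eq_of_equiv_equiv e (RingEquiv.refl _) (RingHom.ext fun _ => rfl)
  rw [← heq, ← Module.finrank_mul_finrank (IntermediateField.adjoin K ({x} : Set F)) F F']
  rfl

/-- the degree of `φ` from two rank computations -/
theorem mul_finrankAlong_eq {K F F' : Type*} [Field K] [Field F] [Field F'] [Algebra K F]
    [Algebra K F'] (φ : F →ₐ[K] F') (x : F) (y : F') (h : φ x = y) (a b : ℕ)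
    (ha : Module.finrank (IntermediateField.adjoin K ({x} : Set F)) F = a)
    (hb : Module.finrank (IntermediateField.adjoin K ({y} : Set F')) F' = b) :
    a * finrankAlong K φ = b := by
  subst h ha hb
  exact finrank_jField_mul φ x

theorem coe_jEl (M : ℕ) [NeZero M] :
    ((jEl ℚbar M : ↥(FLevel ℚbar M)) : LaurentSeries ℚbar) = jL ℚbar 1 :=
  coe_algToField ℚbar M (jAlg ℚbar M)

theorem heckeAlphaBar_jEl (N ℓ : ℕ) [NeZero N] [NeZero ℓ] :
    heckeAlphaBar ℚbar N ℓ (jEl ℚbar N) = jEl ℚbar (N * ℓ) :=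
  Subtype.ext ((coe_heckeAlphaBar N ℓ _).trans ((coe_jEl N).trans (coe_jEl (N * ℓ)).symm))

theorem card_Idx (N ℓ : ℕ) [Fact ℓ.Prime] [NeZero ℓ] :
    Fintype.card (Idx N ℓ) = if ℓ ∣ N then ℓ else ℓ + 1 := by
  classical
  split_ifs with h
  · let f : ZMod ℓ → Idx N ℓ := fun j => ⟨(j : OnePoint (ZMod ℓ)), fun _ => OnePoint.coe_ne_infty j⟩
    rw [← Fintype.card_of_bijective (f := f) ⟨fun a b hab => OnePoint.coe_injective (congrArg Subtype.val hab),
      fun x => ?_⟩, ZMod.card]
    obtain ⟨j, hj⟩ := OnePoint.ne_infty_iff_exists.mp (x.2 h)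
    exact ⟨j, Subtype.ext hj⟩
  · let f : Option (ZMod ℓ) → Idx N ℓ := fun x => ⟨x, fun h' => absurd h' h⟩
    rw [← Fintype.card_of_bijective (f := f) ⟨fun a b hab => congrArg Subtype.val hab,
      fun x => ⟨x.1, rfl⟩⟩, Fintype.card_option, ZMod.card]

section Degree

variable (N ℓ : ℕ) [NeZero N] [Fact ℓ.Prime] [NeZero ℓ]

theorem degreeAlpha : MerModel.DegreeAlpha N ℓ := by
  haveI := isFunctionField_bar N
  haveI := isFunctionField_bar (N * ℓ)
  refine ⟨finiteAlong_of_isFunctionField _, ?_⟩
  have hψ : dedekindPsi N ≠ 0 := by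
    rw [← Gamma0Count.index_Gamma0 N]
    exact Subgroup.FiniteIndex.index_ne_zero
  have htower := (mul_finrankAlong_eq (heckeAlphaBar ℚbar N ℓ) (jEl ℚbar N)
    (jEl ℚbar (N * ℓ)) (heckeAlphaBar_jEl N ℓ) _ _ (finrank_jField qbarEmb)
    ((finrank_jField qbarEmb).trans
      (Gamma0Count.dedekindPsi_mul_prime (NeZero.ne N) Fact.out))).trans (Nat.mul_comm _ _)
  rw [card_Idx]
  exact Nat.eq_of_mul_eq_mul_left (Nat.pos_of_ne_zero hψ) htower

/-- The norm operators at two primes commute. -/
theorem normAlong_beta_comm (m : ℕ) [Fact m.Prime] [NeZero m] (f : modularFunctionFieldBar N) :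
    normAlong (heckeAlphaBar ℚbar N m)
        (heckeBetaBar ℚbar N m (normAlong (heckeAlphaBar ℚbar N ℓ) (heckeBetaBar ℚbar N ℓ f))) =
      normAlong (heckeAlphaBar ℚbar N ℓ)
        (heckeBetaBar ℚbar N ℓ (normAlong (heckeAlphaBar ℚbar N m) (heckeBetaBar ℚbar N m f))) :=
  normAlong_comm (merModel qbarEmb) N ℓ m (degreeAlpha N ℓ) (degreeAlpha N m) f

end Degree

end Fermat.Agent.HeckeJ0
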