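import Fermat.Agent.HeckeJ0.Coh
import Fermat.Agent.J0Torsion.GoodLattice

/-!
# Integral Hecke matrices on the lattice of `Γ₀(N)` modulo parabolic and elliptic elements

The lattice and its basis are those of `Fermat.Agent.J0Torsion.GoodLattice`.
-/

set_option autoImplicit false

noncomputable section

open Matrix.SpecialLinearGroup CongruenceSubgroup ModularCurve.Period
open scoped MatrixGroups

namespace Fermat.Agent.HeckeJ0

variable (N : ℕ)

/-- parabolic or elliptic elements -/
def smallTrace : Set (Gamma0 N) :=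
  {g | ((g : SL(2, ℤ)) : Matrix (Fin 2) (Fin 2) ℤ).trace ^ 2 ≤ 4}

/-- homomorphisms killing parabolic and elliptic elements -/
def IsGoodHom {A : Type*} [AddCommGroup A] (ψ : Additive (Gamma0 N) →+ A) : Prop :=
  ∀ g ∈ smallTrace N, ψ (Additive.ofMul g) = 0

variable [NeZero N]

/-- the rank of the lattice -/
abbrev rk : ℕ := J0Torsion.rank N

/-- elements of `Γ₀(N)` mapping to the basis -/
def cyc (i : Fin (rk N)) : Gamma0 N := Additive.toMul (J0Torsion.genElt N i)

theorem proj_cyc (i : Fin (rk N)) :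
    J0Torsion.proj N (Additive.ofMul (cyc N i)) = Pi.single i 1 := J0Torsion.proj_genElt N i

variable {A : Type*} [AddCommGroup A]

/-- coordinates of a homomorphism -/
def coords : (Additive (Gamma0 N) →+ A) →+ (Fin (rk N) → A) where
  toFun ψ i := ψ (Additive.ofMul (cyc N i))
  map_zero' := rfl
  map_add' _ _ := rfl

theorem coords_apply (ψ : Additive (Gamma0 N) →+ A) (i : Fin (rk N)) :
    coords N ψ i = ψ (Additive.ofMul (cyc N i)) := rfl

/-- the homomorphism with given coordinates -/
def ofCoords (a : Fin (rk N) → A) : Additive (Gamma0 N) →+ A where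
  toFun g := ∑ i, J0Torsion.proj N g i • a i
  map_zero' := by simp
  map_add' g h := by simp [add_smul, Finset.sum_add_distrib]

theorem ofCoords_apply (a : Fin (rk N) → A) (g : Additive (Gamma0 N)) :
    ofCoords N a g = ∑ i, J0Torsion.proj N g i • a i := rfl

theorem isGoodHom_ofCoords (a : Fin (rk N) → A) : IsGoodHom N (ofCoords N a) := by
  intro g hg
  simp [ofCoords_apply, J0Torsion.proj_eq_zero N hg]

theorem coords_ofCoords (a : Fin (rk N) → A) : coords N (ofCoords N a) = a := by
  funext i
  rw [coords_apply, ofCoords_apply, proj_cyc]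
  simp [Pi.single_apply]

theorem map_ofCoords {B : Type*} [AddCommGroup B] (f : A →+ B) (a : Fin (rk N) → A) :
    f.comp (ofCoords N a) = ofCoords N (fun i => f (a i)) := by
  refine AddMonoidHom.ext fun g => ?_
  simp [ofCoords_apply]

theorem ofCoords_coords_complex {ψ : Additive (Gamma0 N) →+ ℂ} (hψ : IsGoodHom N ψ) :
    ofCoords N (coords N ψ) = ψ := by
  have hP : ψ ∈ parabolicHoms ℂ (Gamma0 N) ℂ :=
    mem_parabolicHoms_iff.mpr fun g hg => hψ g hg.le
  refine AddMonoidHom.ext fun g => ?_
  rw [show ψ g = _ from J0Torsion.apply_eq_sum_coords N ⟨ψ, hP⟩ g, ofCoords_apply]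
  exact Finset.sum_congr rfl fun i _ => by rw [zsmul_eq_mul]; rfl

theorem ofCoords_coords_int {ψ : Additive (Gamma0 N) →+ ℤ} (hψ : IsGoodHom N ψ) :
    ofCoords N (coords N ψ) = ψ := by
  have hgood : IsGoodHom N ((Int.castAddHom ℂ).comp ψ) := fun g hg => by simp [hψ g hg]
  have h := ofCoords_coords_complex N hgood
  refine AddMonoidHom.ext fun g => ?_
  refine Int.cast_injective (α := ℂ) ?_
  have hg := DFunLike.congr_fun h g
  simp only [ofCoords_apply, coords_apply, AddMonoidHom.comp_apply, Int.coe_castAddHom] at hg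
  rw [← hg, ofCoords_apply]
  simp [coords_apply]

/-- A good homomorphism to `ℤ/n` is determined by its coordinates. -/
theorem ofCoords_coords_zmod (hP : J0Torsion.ParabolicFull N) (n : ℕ) [NeZero n]
    {ψ : Additive (Gamma0 N) →+ ZMod n} (hψ : IsGoodHom N ψ) :
    ofCoords N (coords N ψ) = ψ := by
  have hspec := J0Torsion.coordsEquiv_spec hP n ⟨ψ, hψ⟩
  have hc : ∀ i, ψ (Additive.ofMul (cyc N i)) = J0Torsion.coordsEquiv hP n ⟨ψ, hψ⟩ i := by
    intro i
    refine (hspec _).trans ?_
    rw [proj_cyc]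
    simp [Pi.single_apply]
  refine AddMonoidHom.ext fun g => ?_
  rw [ofCoords_apply]
  refine Eq.trans ?_ (hspec g).symm
  exact Finset.sum_congr rfl fun i _ => by rw [coords_apply, hc, zsmul_eq_mul]

/-- the integral Hecke matrix -/
def heckeMat (ℓ : ℕ) [Fact ℓ.Prime] [NeZero ℓ] : Matrix (Fin (rk N)) (Fin (rk N)) ℤ :=
  fun i k => coords N (cohHecke ℓ (ofCoords N (Pi.single k (1 : ℤ)))) i

theorem ofCoords_eq_sum {R : Type*} [CommRing R] (a : Fin (rk N) → R) (g : Additive (Gamma0 N)) :
    ofCoords N a g =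
      ∑ k, ((ofCoords N (Pi.single k (1 : ℤ)) g : ℤ) : R) * a k := by
  classical
  rw [ofCoords_apply]
  refine Finset.sum_congr rfl fun k _ => ?_
  simp [ofCoords_apply, Pi.single_apply, zsmul_eq_mul]

/-- In lattice coordinates the Hecke transfer is the integral Hecke matrix. -/
theorem coords_cohHecke_ofCoords {R : Type*} [CommRing R] (ℓ : ℕ) [Fact ℓ.Prime] [NeZero ℓ]
    (a : Fin (rk N) → R) :
    coords N (cohHecke ℓ (ofCoords N a)) =
      Matrix.mulVec ((heckeMat N ℓ).map (Int.cast : ℤ → R)) a := by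
  funext i
  rw [coords_apply, cohHecke_apply]
  simp only [ofCoords_eq_sum N a, Matrix.mulVec, dotProduct, Matrix.map_apply]
  rw [Finset.sum_comm]
  refine Finset.sum_congr rfl fun k _ => ?_
  rw [heckeMat, coords_apply, cohHecke_apply, Int.cast_sum, Finset.sum_mul]

end Fermat.Agent.HeckeJ0
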