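import Fermat.Agent.J0Torsion.GoodLattice
import Fermat.Agent.S20

/-!
# The parabolic homomorphisms of `Γ₀(N)` have dimension `2g`
-/

set_option autoImplicit false

noncomputable section

open CongruenceSubgroup ModularCurve ModularCurve.Period

namespace Fermat.Agent.HeckeJ0

/-- The parabolic part of `H¹(Γ₀(N), ℂ)` has dimension `2g`. -/
theorem parabolicFull (N : ℕ) [NeZero N] : J0Torsion.ParabolicFull N := by
  refine le_antisymm (EichlerShimura.finrank_parabolicHoms_le N) ?_
  have h := (EichlerShimura.periodFacts N).two_mul_finrank_le
  rw [← S20.result N]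
  exact_mod_cast h

end Fermat.Agent.HeckeJ0
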