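import Fermat.Agent.HeckeJ0.Reps
import Fermat.Agent.X0Analytic.HolFun

/-!
# The action of `GL₂(ℝ)⁺` on meromorphic functions, and conjugation by the Fricke matrix
-/

set_option autoImplicit false

noncomputable section

open Matrix.SpecialLinearGroup CongruenceSubgroup UpperHalfPlane
open scoped MatrixGroups
open Fermat.Agent.X0Analytic

namespace Fermat.Agent.HeckeJ0

open Classical in
/-- precomposition with `g`, junk value if `det g ≤ 0` -/
def act (g : GL (Fin 2) ℝ) : Mer →+* Mer :=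
  if hg : 0 < g.det.val then merComp g hg else RingHom.id Mer

theorem act_algebraMap {g : GL (Fin 2) ℝ} (hg : 0 < g.det.val) (f : Hol) :
    act g (algebraMap Hol Mer f) = algebraMap Hol Mer (preComp g hg f) := by
  rw [act, dif_pos hg, merComp_algebraMap]

theorem det_pos_mul {g h : GL (Fin 2) ℝ} (hg : 0 < g.det.val) (hh : 0 < h.det.val) :
    0 < (g * h).det.val := by
  rw [map_mul, Units.val_mul]
  exact mul_pos hg hh

theorem act_mul {g h : GL (Fin 2) ℝ} (hg : 0 < g.det.val) (hh : 0 < h.det.val) (F : Mer) :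
    act (g * h) F = act h (act g F) := by
  have : act (g * h) = (act h).comp (act g) := by
    refine IsLocalization.ringHom_ext (nonZeroDivisors Hol) (RingHom.ext fun f => ?_)
    simp only [RingHom.comp_apply, act_algebraMap hg, act_algebraMap (det_pos_mul hg hh),
      act_algebraMap hh]
    refine congrArg _ (Subtype.ext (funext fun τ => ?_))
    simp [mul_smul]
  rw [this, RingHom.comp_apply]

theorem det_pos_mapGL (γ : SL(2, ℤ)) : 0 < (mapGL ℝ γ : GL (Fin 2) ℝ).det.val :=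
  det_pos_SL γ

theorem det_pos_rep {N ℓ : ℕ} [Fact ℓ.Prime] (x : Idx N ℓ) : 0 < (rep x).det.val := by
  have hℓ : (0 : ℝ) < ℓ := by exact_mod_cast (Fact.out : ℓ.Prime).pos
  rw [Matrix.GeneralLinearGroup.val_det_apply]
  rcases rep_cases x with ⟨j, -, h⟩ | ⟨-, -, h⟩ <;> rw [h, Matrix.det_fin_two_of] <;> simp [hℓ]

section Fricke

variable (N : ℕ) [NeZero N]

/-- the Fricke matrix `(0 -1; N 0)` -/
def fricke : GL (Fin 2) ℝ :=
  Matrix.GeneralLinearGroup.mkOfDetNeZero !![0, -1; (N : ℝ), 0]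
    (by simp [Matrix.det_fin_two_of, NeZero.ne N])

theorem val_fricke : ((fricke N : GL (Fin 2) ℝ) : Matrix (Fin 2) (Fin 2) ℝ) = !![0, -1; (N : ℝ), 0] :=
  rfl

theorem det_pos_fricke : 0 < (fricke N).det.val := by
  rw [Matrix.GeneralLinearGroup.val_det_apply, val_fricke, Matrix.det_fin_two_of]
  simp [Nat.pos_of_ne_zero (NeZero.ne N)]

omit [NeZero N] in
theorem dvd_lowerLeft (γ : Gamma0 N) : (N : ℤ) ∣ (γ : SL(2, ℤ)) 1 0 :=
  (mem_Gamma0_iff_dvd _).mp γ.2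

variable {N}

/-- conjugation by the Fricke matrix, `γ ↦ W γ W⁻¹` -/
def frickeConj (γ : Gamma0 N) : Gamma0 N :=
  ⟨⟨!![(γ : SL(2, ℤ)) 1 1, -((γ : SL(2, ℤ)) 1 0 / N); -((N : ℤ) * (γ : SL(2, ℤ)) 0 1),
      (γ : SL(2, ℤ)) 0 0], by
    obtain ⟨c, hc⟩ := dvd_lowerLeft N γ
    have h := (γ : SL(2, ℤ)).det_coe
    rw [Matrix.det_fin_two, hc] at h
    rw [Matrix.det_fin_two_of, hc, Int.mul_ediv_cancel_left _ (by exact_mod_cast NeZero.ne N)]
    linear_combination h⟩,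
    (mem_Gamma0_iff_dvd _).mpr ⟨-(γ : SL(2, ℤ)) 0 1, by simp⟩⟩

theorem frickeConj_mul_fricke (γ : Gamma0 N) :
    mapGL ℝ (frickeConj γ : SL(2, ℤ)) * fricke N = fricke N * mapGL ℝ (γ : SL(2, ℤ)) := by
  obtain ⟨c, hc⟩ := dvd_lowerLeft N γ
  have hcR : (((γ : SL(2, ℤ)) 1 0 : ℤ) : ℝ) = (N : ℝ) * (c : ℝ) := by exact_mod_cast hc
  have hdiv : (γ : SL(2, ℤ)) 1 0 / (N : ℤ) = c := by
    rw [hc, Int.mul_ediv_cancel_left _ (by exact_mod_cast NeZero.ne N)]
  refine Units.ext ?_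
  rw [Units.val_mul, Units.val_mul, val_fricke]
  ext i j
  rw [Matrix.mul_apply, Matrix.mul_apply, Fin.sum_univ_two, Fin.sum_univ_two, val_mapGL_apply,
    val_mapGL_apply, val_mapGL_apply, val_mapGL_apply]
  fin_cases i <;> fin_cases j <;> simp [frickeConj, hdiv, hcR, mul_comm]

theorem frickeConj_lowerLeft (γ : Gamma0 N) :
    (frickeConj γ : SL(2, ℤ)) 1 0 = -((N : ℤ) * (γ : SL(2, ℤ)) 0 1) := by
  simp [frickeConj]

theorem frickeConj_mul (γ δ : Gamma0 N) :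
    frickeConj (γ * δ) = frickeConj γ * frickeConj δ := by
  refine mapGL_Gamma0_injective (mul_right_cancel (b := fricke N) ?_)
  show mapGL ℝ (frickeConj (γ * δ) : SL(2, ℤ)) * fricke N =
    mapGL ℝ ((frickeConj γ * frickeConj δ : Gamma0 N) : SL(2, ℤ)) * fricke N
  rw [frickeConj_mul_fricke, Subgroup.coe_mul, Subgroup.coe_mul, map_mul, map_mul, mul_assoc,
    frickeConj_mul_fricke, ← mul_assoc, ← mul_assoc, frickeConj_mul_fricke]

theorem trace_frickeConj (γ : Gamma0 N) :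
    ((frickeConj γ : SL(2, ℤ)) : Matrix (Fin 2) (Fin 2) ℤ).trace =
      ((γ : SL(2, ℤ)) : Matrix (Fin 2) (Fin 2) ℤ).trace := by
  simp [frickeConj, Matrix.trace_fin_two, add_comm]

/-- conjugation by the Fricke matrix on homomorphisms -/
def frickeTwist {A : Type*} [AddCommGroup A] :
    (Additive (Gamma0 N) →+ A) →+ (Additive (Gamma0 N) →+ A) where
  toFun ψ := AddMonoidHom.mk' (fun g => ψ (Additive.ofMul (frickeConj (Additive.toMul g))))
    (fun g h => by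
      show ψ (Additive.ofMul (frickeConj (Additive.toMul g * Additive.toMul h))) = _
      rw [frickeConj_mul, ofMul_mul, map_add])
  map_zero' := rfl
  map_add' _ _ := rfl

theorem frickeConj_frickeConj (γ : Gamma0 N) : frickeConj (frickeConj γ) = γ := by
  obtain ⟨c, hc⟩ := dvd_lowerLeft N γ
  have hN : (N : ℤ) ≠ 0 := by exact_mod_cast NeZero.ne N
  refine Subtype.ext (Subtype.ext ?_)
  ext i j
  fin_cases i <;> fin_cases j <;>
    simp [frickeConj, hc, Int.mul_ediv_cancel_left _ hN, Int.neg_ediv_of_dvd (dvd_mul_right _ _)]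

end Fricke

section Transitive

variable {N ℓ : ℕ} [Fact ℓ.Prime] [NeZero ℓ]

/-- the index of `(1 0; 0 ℓ)` -/
def idx0 (N ℓ : ℕ) : Idx N ℓ := ⟨((0 : ZMod ℓ) : OnePoint (ZMod ℓ)), fun _ => OnePoint.coe_ne_infty _⟩

omit [NeZero ℓ] in
theorem isTri_rep_idx0 : IsTri (rep (idx0 N ℓ)) 1 0 ℓ := by
  rcases rep_cases (idx0 N ℓ) with ⟨j, hj, h⟩ | ⟨hj, -, -⟩
  · obtain rfl : (0 : ZMod ℓ) = j := OnePoint.coe_injective hj
    simpa using h
  · exact absurd hj (OnePoint.coe_ne_infty _)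

theorem exists_gamma_idx (x : Idx N ℓ) : ∃ γ : Gamma0 N, permOf γ (idx0 N ℓ) = x := by
  rcases rep_cases x with ⟨j, -, hx⟩ | ⟨-, hℓN, hx⟩
  · refine ⟨⟨⟨!![1, (j.val : ℤ); 0, 1], by simp [Matrix.det_fin_two_of]⟩,
      (mem_Gamma0_iff_dvd _).mpr (by simp)⟩, (perm_gOf_unique (g := 1) (Units.ext ?_)).1⟩
    rw [Units.val_mul, Units.val_mul, isTri_rep_idx0, hx]
    ext i k
    rw [Matrix.mul_apply, Matrix.mul_apply, Fin.sum_univ_two, Fin.sum_univ_two, val_mapGL_apply,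
      val_mapGL_apply, val_mapGL_apply, val_mapGL_apply]
    fin_cases i <;> fin_cases k <;> simp
  · have hcop : IsCoprime ((ℓ : ℤ) * 1) (N : ℤ) := by
      rw [mul_one]
      exact Nat.isCoprime_iff_coprime.mpr ((Nat.Prime.coprime_iff_not_dvd Fact.out).mpr hℓN)
    obtain ⟨w, v, hwv⟩ := hcop
    -- `(ℓ w, -v; N, 1)` carries `(1 0; 0 ℓ)` to `(w, -v; N, ℓ) (ℓ 0; 0 1)`
    let g : Gamma0 N := ⟨⟨!![w, -v; (N : ℤ), (ℓ : ℤ)], by
      rw [Matrix.det_fin_two_of]; linear_combination hwv⟩, (mem_Gamma0_iff_dvd _).mpr (by simp)⟩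
    refine ⟨⟨⟨!![(ℓ : ℤ) * w, -v; (N : ℤ), 1], by
      rw [Matrix.det_fin_two_of]; linear_combination hwv⟩, (mem_Gamma0_iff_dvd _).mpr (by simp)⟩,
      (perm_gOf_unique (g := g) (Units.ext ?_)).1⟩
    rw [Units.val_mul, Units.val_mul, isTri_rep_idx0, hx]
    ext i k
    rw [Matrix.mul_apply, Matrix.mul_apply, Fin.sum_univ_two, Fin.sum_univ_two, val_mapGL_apply,
      val_mapGL_apply, val_mapGL_apply, val_mapGL_apply]
    fin_cases i <;> fin_cases k <;> simp [g, mul_comm]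

/-- a transporter from `(1 0; 0 ℓ)` to the representative `x` -/
def gammaOf (x : Idx N ℓ) : Gamma0 N := (exists_gamma_idx x).choose

theorem permOf_gammaOf (x : Idx N ℓ) : permOf (gammaOf x) (idx0 N ℓ) = x :=
  (exists_gamma_idx x).choose_spec

theorem eq_of_dvd_upperRight {x y : Idx N ℓ} (u : Gamma0 N) (hu : gammaOf x = u * gammaOf y)
    (hb : (ℓ : ℤ) ∣ (u : SL(2, ℤ)) 0 1) : x = y := by
  obtain ⟨b, hb⟩ := hb
  let g : Gamma0 N := ⟨⟨!![(u : SL(2, ℤ)) 0 0, b; (ℓ : ℤ) * (u : SL(2, ℤ)) 1 0, (u : SL(2, ℤ)) 1 1], by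
    have h := (u : SL(2, ℤ)).det_coe
    rw [Matrix.det_fin_two, hb] at h
    rw [Matrix.det_fin_two_of]; linear_combination h⟩,
    (mem_Gamma0_iff_dvd _).mpr (dvd_mul_of_dvd_right ((mem_Gamma0_iff_dvd _).mp u.2) _)⟩
  have hfix : permOf u (idx0 N ℓ) = idx0 N ℓ := by
    refine (perm_gOf_unique (g := g) (Units.ext ?_)).1
    rw [Units.val_mul, Units.val_mul, isTri_rep_idx0]
    ext i k
    rw [Matrix.mul_apply, Matrix.mul_apply, Fin.sum_univ_two, Fin.sum_univ_two, val_mapGL_apply,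
      val_mapGL_apply, val_mapGL_apply, val_mapGL_apply]
    fin_cases i <;> fin_cases k <;> simp [g, hb, mul_comm]
  rw [← permOf_gammaOf x, hu, (permOf_mul _ _ _).1, hfix, permOf_gammaOf]

end Transitive

end Fermat.Agent.HeckeJ0
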