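import Fermat.Agent.HeckeJ0.TorsionHecke
import Fermat.Agent.HeckeJ0.Periods
import Fermat.Agent.HeckeJ0.ParabolicFull

/-!
# The Hecke module model of torsion, from monodromy isomorphisms
-/

set_option autoImplicit false
set_option linter.style.haveILetI false

noncomputable section

open CongruenceSubgroup
open scoped MatrixGroups
open AlgebraicCurve ModularCurve

namespace Fermat.Agent.HeckeJ0

local notation "ℚbar" => AlgebraicClosure ℚ

variable {N : ℕ} [NeZero N]

theorem frickeTwist_frickeTwist {A : Type*} [AddCommGroup A] (ψ : Additive (Gamma0 N) →+ A) :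
    frickeTwist (frickeTwist ψ) = ψ := by
  refine AddMonoidHom.ext fun g => ?_
  obtain ⟨γ, rfl⟩ := Additive.ofMul.surjective g
  show ψ (Additive.ofMul (frickeConj (frickeConj γ))) = _
  rw [frickeConj_frickeConj]

theorem isGoodHom_frickeTwist {A : Type*} [AddCommGroup A] {ψ : Additive (Gamma0 N) →+ A}
    (hψ : IsGoodHom N ψ) : IsGoodHom N (frickeTwist ψ) := fun g hg => by
  refine hψ (frickeConj g) ?_
  show ((frickeConj g : SL(2, ℤ)) : Matrix (Fin 2) (Fin 2) ℤ).trace ^ 2 ≤ 4
  rw [trace_frickeConj]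
  exact hg

/-- twisted coordinates of good homomorphisms to `ℤ/n` -/
def twCoordsEquiv (n : ℕ) [NeZero n] :
    J0Torsion.goodHoms N (ZMod n) ≃+ (Fin (rk N) → ZMod n) where
  toFun ψ := coords N (frickeTwist (ψ : Additive (Gamma0 N) →+ ZMod n))
  invFun a := ⟨frickeTwist (ofCoords N a), isGoodHom_frickeTwist (isGoodHom_ofCoords N a)⟩
  left_inv ψ := Subtype.ext (by
    show frickeTwist (ofCoords N (coords N (frickeTwist (ψ : Additive (Gamma0 N) →+ ZMod n)))) = _
    rw [ofCoords_coords_zmod N (parabolicFull N) n (isGoodHom_frickeTwist ψ.2),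
      frickeTwist_frickeTwist])
  right_inv a := by
    show coords N (frickeTwist (frickeTwist (ofCoords N a))) = a
    rw [frickeTwist_frickeTwist, coords_ofCoords]
  map_add' ψ ψ' := by rw [AddSubgroup.coe_add, map_add, map_add]

variable (φ : ℚbar →+* ℂ)

theorem monodromy_mul' {m n k : ℕ} [NeZero m] [NeZero n] [NeZero k] (hk : k = m * n) {x y : JZero N}
    (hx : x ∈ Pic0.torsion ℚbar (modularFunctionFieldBar N) k) (hy : y = m • x)
    {ψ : Additive (Gamma0 N) →+ ZMod k} {ψ' : Additive (Gamma0 N) →+ ZMod n}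
    (h : IsMonodromy φ k x ψ) (h' : IsMonodromy φ n y ψ') (hd : n ∣ k) :
    ψ' = (ZMod.castHom hd (ZMod n)).toAddMonoidHom.comp ψ := by
  subst hk
  exact monodromy_mul φ hx hy h h'

/-- The Hecke module model, from monodromy isomorphisms at all levels. -/
def torsionHeckeModelOf (p : ℕ) [Fact p.Prime]
    (θ : ∀ n : ℕ, Pic0.torsion ℚbar (modularFunctionFieldBar N) (p ^ n) ≃+
      J0Torsion.goodHoms N (ZMod (p ^ n)))
    (hθ : ∀ (n : ℕ) (x : Pic0.torsion ℚbar (modularFunctionFieldBar N) (p ^ n)),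
      IsMonodromy φ (p ^ n) (x : JZero N) (θ n x : Additive (Gamma0 N) →+ ZMod (p ^ n))) :
    EigenRep.TorsionHeckeModel N p where
  d := rk N
  T := heckeMatAt N
  comm := heckeMatAt_comm N
  e n := (θ n).trans (twCoordsEquiv (p ^ n))
  e_hecke n ℓ x y hy := by
    haveI : Fact (ℓ : ℕ).Prime := ⟨ℓ.2⟩
    haveI : NeZero (ℓ : ℕ) := ⟨ℓ.2.ne_zero⟩
    have h := monodromy_hecke φ ℓ x.2 hy (hθ n x) (hθ n y)
    show coords N (frickeTwist (θ n y : Additive (Gamma0 N) →+ ZMod (p ^ n))) = _
    rw [h, ← ofCoords_coords_zmod N (parabolicFull N) (p ^ n) (isGoodHom_frickeTwist (θ n x).2),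
      coords_cohHecke_ofCoords]
    rfl
  e_compat n x y hy i := by
    have h := monodromy_mul' φ (pow_succ' p n) x.2 hy (hθ (n + 1) x) (hθ n y)
      (pow_dvd_pow p n.le_succ)
    show coords N (frickeTwist (θ n y : Additive (Gamma0 N) →+ ZMod (p ^ n))) i = _
    rw [h]
    rfl
  per := perMap N
  per_injective := perMap_injective N
  per_hecke ℓ f := perMap_formsOp N ℓ f

end Fermat.Agent.HeckeJ0
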