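import Fermat.Agent.HeckeJ0.Reps
import Fermat.Prelude.Def_ModularForm_HeckeOperatorForms
import Fermat.Prelude.Def_ModularCurve_PeriodMapBundled
import Mathlib.Analysis.Complex.Convex
import Mathlib.Analysis.Complex.UpperHalfPlane.Topology
import Mathlib.Analysis.Calculus.MeanValue

/-!
# The Hecke transfer on homomorphisms of `Γ₀(N)` and its compatibility with periods
-/

set_option autoImplicit false

noncomputable section

open Matrix.SpecialLinearGroup CongruenceSubgroup UpperHalfPlane ModularCurve ModularCurve.Period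
open scoped MatrixGroups ModularForm

namespace Fermat.Agent.HeckeJ0

section Transfer

variable {N : ℕ} (ℓ : ℕ) [Fact ℓ.Prime] [NeZero ℓ]
  {A B : Type*} [AddCommGroup A] [AddCommGroup B]

/-- Hecke transfer of a homomorphism of `Γ₀(N)` -/
def cohHecke (ψ : Additive (Gamma0 N) →+ A) : Additive (Gamma0 N) →+ A :=
  AddMonoidHom.mk'
    (fun γ => ∑ x : Idx N ℓ, ψ (Additive.ofMul (gOf x (Additive.toMul γ))))
    (fun γ δ => by
      show ∑ x : Idx N ℓ, ψ (Additive.ofMul (gOf x (Additive.toMul γ * Additive.toMul δ))) = _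
      simp only [(permOf_mul _ _ _).2, ofMul_mul, map_add, Finset.sum_add_distrib]
      congr 1
      exact Equiv.sum_comp (permOf (Additive.toMul γ))
        (fun x => ψ (Additive.ofMul (gOf x (Additive.toMul δ)))))

theorem cohHecke_apply (ψ : Additive (Gamma0 N) →+ A) (γ : Gamma0 N) :
    cohHecke ℓ ψ (Additive.ofMul γ) = ∑ x : Idx N ℓ, ψ (Additive.ofMul (gOf x γ)) := rfl

/-- transfer of the quotient character of an equivariant function -/
theorem sum_rep_smul_sub {X : Type*} [MulAction (GL (Fin 2) ℝ) X] (F : X → A)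
    (ψ : Additive (Gamma0 N) →+ A)
    (h : ∀ (g : Gamma0 N) (τ : X),
      F ((mapGL ℝ (g : SL(2, ℤ)) : GL (Fin 2) ℝ) • τ) = ψ (Additive.ofMul g) + F τ)
    (γ : Gamma0 N) (τ : X) :
    ∑ x : Idx N ℓ, F (rep x • (mapGL ℝ (γ : SL(2, ℤ)) : GL (Fin 2) ℝ) • τ) =
      cohHecke ℓ ψ (Additive.ofMul γ) + ∑ x : Idx N ℓ, F (rep x • τ) := by
  calc ∑ x : Idx N ℓ, F (rep x • (mapGL ℝ (γ : SL(2, ℤ)) : GL (Fin 2) ℝ) • τ)
      = ∑ x : Idx N ℓ, (ψ (Additive.ofMul (gOf x γ)) + F (rep (permOf γ x) • τ)) := by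
        refine Finset.sum_congr rfl fun x _ => ?_
        rw [← mul_smul, rep_mul, mul_smul, h]
    _ = _ := by
        rw [Finset.sum_add_distrib, cohHecke_apply]
        congr 1
        exact Equiv.sum_comp (permOf γ) (fun x => F (rep x • τ))

/-- a function on `GL₂(ℝ)` with the given quotient character -/
theorem exists_equivariant (ψ : Additive (Gamma0 N) →+ A) :
    ∃ F : GL (Fin 2) ℝ → A, ∀ (g : Gamma0 N) (M : GL (Fin 2) ℝ),
      F ((mapGL ℝ (g : SL(2, ℤ)) : GL (Fin 2) ℝ) • M) = ψ (Additive.ofMul g) + F M := by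
  let H : Subgroup (GL (Fin 2) ℝ) := ((mapGL ℝ).comp (Gamma0 N).subtype).range
  let out : GL (Fin 2) ℝ → GL (Fin 2) ℝ := fun M => Quotient.out
    (Quotient.mk (QuotientGroup.rightRel H) M)
  have hout : ∀ M, ∃ g : Gamma0 N, M = mapGL ℝ (g : SL(2, ℤ)) * out M := fun M => by
    have h : (QuotientGroup.rightRel H) (out M) M := Quotient.exact (Quotient.out_eq _)
    rw [QuotientGroup.rightRel_apply] at h
    obtain ⟨g, hg⟩ := h
    refine ⟨g, ?_⟩
    simp only [MonoidHom.coe_comp, Subgroup.coe_subtype, Function.comp_apply] at hg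
    rw [hg, inv_mul_cancel_right]
  choose gf hgf using hout
  refine ⟨fun M => ψ (Additive.ofMul (gf M)), fun g M => ?_⟩
  rw [smul_eq_mul]
  show ψ _ = ψ _ + ψ _
  rw [← map_add, ← ofMul_mul]
  congr 2
  refine mapGL_Gamma0_injective (mul_right_cancel (b := out M) ?_)
  have hsame : out (mapGL ℝ (g : SL(2, ℤ)) * M) = out M := by
    refine congrArg Quotient.out (Quotient.sound ?_)
    show QuotientGroup.rightRel H _ _
    rw [QuotientGroup.rightRel_apply, mul_inv_rev, mul_inv_cancel_left]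
    exact H.inv_mem ⟨g, rfl⟩
  have h1 := hgf (mapGL ℝ (g : SL(2, ℤ)) * M)
  rw [hsame] at h1
  show mapGL ℝ (gf _ : SL(2, ℤ)) * out M = mapGL ℝ ((g * gf M : Gamma0 N) : SL(2, ℤ)) * out M
  rw [← h1, Subgroup.coe_mul, map_mul, mul_assoc, ← hgf M]

theorem cohHecke_comm (m : ℕ) [Fact m.Prime] [NeZero m] (ψ : Additive (Gamma0 N) →+ A) :
    cohHecke ℓ (cohHecke m ψ) = cohHecke m (cohHecke ℓ ψ) := by
  rcases eq_or_ne ℓ m with rfl | hne
  · rfl
  obtain ⟨F, hF⟩ := exists_equivariant ψ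
  refine AddMonoidHom.ext fun γ => ?_
  obtain ⟨γ, rfl⟩ := Additive.ofMul.surjective γ
  let M : GL (Fin 2) ℝ := mapGL ℝ (γ : SL(2, ℤ))
  have hm := fun (g : Gamma0 N) (M' : GL (Fin 2) ℝ) => sum_rep_smul_sub m F ψ hF g M'
  have hl := fun (g : Gamma0 N) (M' : GL (Fin 2) ℝ) => sum_rep_smul_sub ℓ F ψ hF g M'
  have e₁ := sum_rep_smul_sub ℓ (fun M' => ∑ y : Idx N m, F (rep y • M')) _ hm γ (1 : GL (Fin 2) ℝ)
  have e₂ := sum_rep_smul_sub m (fun M' => ∑ y : Idx N ℓ, F (rep y • M')) _ hl γ (1 : GL (Fin 2) ℝ)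
  obtain ⟨e, he⟩ := exists_swap_equiv (N := N) hne
  choose g hg using he
  have hswap : ∀ M' : GL (Fin 2) ℝ, ∑ y : Idx N m, ∑ x : Idx N ℓ, F (rep x • rep y • M') =
      (∑ p : Idx N ℓ × Idx N m, ψ (Additive.ofMul (g p))) +
        ∑ x : Idx N ℓ, ∑ y : Idx N m, F (rep y • rep x • M') := fun M' => by
    rw [Finset.sum_comm, ← Finset.sum_product', ← Finset.sum_product', Finset.univ_product_univ]
    calc ∑ p : Idx N ℓ × Idx N m, F (rep p.1 • rep p.2 • M')
        = ∑ p : Idx N ℓ × Idx N m,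
            (ψ (Additive.ofMul (g p)) + F (rep (e p).1 • rep (e p).2 • M')) := by
          refine Finset.sum_congr rfl fun p _ => ?_
          rw [← mul_smul, hg p, mul_smul, mul_smul, hF]
      _ = _ := by
          rw [Finset.sum_add_distrib,
            Equiv.sum_comp e (fun q : Idx N m × Idx N ℓ => F (rep q.1 • rep q.2 • M'))]
          congr 1
          exact Fintype.sum_equiv (Equiv.prodComm _ _) _ _ fun _ => rfl
  rw [hswap, hswap] at e₂
  rw [e₁] at e₂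
  rw [← add_assoc, ← add_assoc, add_comm (∑ p : Idx N ℓ × Idx N m, ψ (Additive.ofMul (g p))) _] at e₂
  exact add_right_cancel (add_right_cancel e₂)

end Transfer

section Periods

variable {N ℓ : ℕ} [NeZero N] [Fact ℓ.Prime] [NeZero ℓ]

/-- the weight-two Hecke operator attached to `ℓ` -/
def hOp (N ℓ : ℕ) [NeZero N] [Fact ℓ.Prime] :
    Module.End ℂ (CuspForm (Gamma0 N) 2) :=
  if h : ℓ ∣ N then CuspForm.heckeULin 2 h else CuspForm.heckeTLin 2 (Fact.out : ℓ.Prime) h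

/-- the value of `Σ f|₂ rep x` -/
theorem hOp_apply (f : CuspForm (Gamma0 N) 2) (τ : ℍ) :
    hOp N ℓ f τ = ∑ x : Idx N ℓ, (⇑f ∣[(2 : ℤ)] rep x) τ := by
  open P2MW.S_ModularForm_heckeT_slash_eq_self_of_mem_Gamma0.ModularForm.HeckeSlashInvariance in
  unfold hOp
  by_cases hℓN : ℓ ∣ N
  · rw [dif_pos hℓN, CuspForm.heckeULin_apply_apply, heckeU_eq_sum_zmod, Finset.sum_apply]
    let toIdx : ZMod ℓ → Idx N ℓ :=
      fun j => ⟨(j : OnePoint (ZMod ℓ)), fun _ => OnePoint.coe_ne_infty j⟩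
    refine Fintype.sum_bijective toIdx
      ⟨fun a b h => OnePoint.coe_injective (congrArg Subtype.val h), fun x => ?_⟩ _ _ fun j => rfl
    obtain ⟨j, hj⟩ := OnePoint.ne_infty_iff_exists.mp (x.2 hℓN)
    exact ⟨j, Subtype.ext hj⟩
  · rw [dif_neg hℓN, CuspForm.heckeTLin_apply_apply, heckeT_eq_sum_onePoint, Finset.sum_apply]
    let toIdx : OnePoint (ZMod ℓ) → Idx N ℓ := fun x => ⟨x, fun h => absurd h hℓN⟩
    exact Fintype.sum_bijective toIdx
      ⟨fun a b h => congrArg Subtype.val h, fun x => ⟨x.1, rfl⟩⟩ _ _ fun x => rfl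

omit [NeZero N] in
theorem hasDerivAt_comp_rep (x : Idx N ℓ) {F : ℍ → ℂ} {f : ℍ → ℂ}
    (hF : ∀ τ : ℍ, HasDerivAt (F ∘ ofComplex) (f τ) ↑τ) (τ : ℍ) :
    HasDerivAt ((fun τ => F (rep x • τ)) ∘ ofComplex) ((f ∣[(2 : ℤ)] rep x) τ) ↑τ := by
  have hℓ : ℓ ≠ 0 := (Fact.out : ℓ.Prime).ne_zero
  have hℓC : (ℓ : ℂ) ≠ 0 := Nat.cast_ne_zero.mpr hℓ
  have hev : ∀ᶠ z : ℂ in nhds (τ : ℂ), 0 < z.im :=
    (isOpen_lt continuous_const Complex.continuous_im).mem_nhds τ.im_pos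
  obtain ⟨x, hx⟩ := x
  induction x using OnePoint.rec with
  | infty =>
    show HasDerivAt ((fun τ => F (ModularForm.heckeDiagMatrix ℓ • τ)) ∘ ofComplex)
      ((f ∣[(2 : ℤ)] ModularForm.heckeDiagMatrix ℓ) τ) ↑τ
    rw [ModularForm.slash_heckeDiagMatrix_apply 2 hℓ]
    have haff : HasDerivAt (fun z : ℂ => (ℓ : ℂ) * z) (ℓ : ℂ) (τ : ℂ) := by
      simpa using (hasDerivAt_id (τ : ℂ)).const_mul (ℓ : ℂ)
    have hFd := hF (ModularForm.heckeDiagMatrix ℓ • τ)
    rw [ModularForm.coe_heckeDiagMatrix_smul hℓ] at hFd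
    have h := hFd.comp (τ : ℂ) haff
    rw [show ((ℓ : ℂ) ^ ((2 : ℤ) - 1) * f (ModularForm.heckeDiagMatrix ℓ • τ)) =
      f (ModularForm.heckeDiagMatrix ℓ • τ) * (ℓ : ℂ) by norm_num; ring]
    refine h.congr_of_eventuallyEq ?_
    filter_upwards [hev] with z hz
    simp only [Function.comp_apply, ofComplex_apply_of_im_pos hz]
    rw [← ofComplex_apply (ModularForm.heckeDiagMatrix ℓ • (⟨z, hz⟩ : ℍ)),
      ModularForm.coe_heckeDiagMatrix_smul hℓ]
  | coe j =>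
    show HasDerivAt ((fun τ => F (ModularForm.heckeMatrix ℓ j.val • τ)) ∘ ofComplex)
      ((f ∣[(2 : ℤ)] ModularForm.heckeMatrix ℓ j.val) τ) ↑τ
    rw [ModularForm.slash_heckeMatrix_apply 2 hℓ]
    have haff : HasDerivAt (fun z : ℂ => (z + (j.val : ℂ)) / (ℓ : ℂ)) ((ℓ : ℂ)⁻¹) (τ : ℂ) := by
      simpa [one_div] using ((hasDerivAt_id (τ : ℂ)).add_const (j.val : ℂ)).div_const (ℓ : ℂ)
    have hFd := hF (ModularForm.heckeMatrix ℓ j.val • τ)
    rw [ModularForm.coe_heckeMatrix_smul hℓ] at hFd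
    have h := hFd.comp (τ : ℂ) haff
    rw [mul_comm]
    refine h.congr_of_eventuallyEq ?_
    filter_upwards [hev] with z hz
    simp only [Function.comp_apply, ofComplex_apply_of_im_pos hz]
    rw [← ofComplex_apply (ModularForm.heckeMatrix ℓ j.val • (⟨z, hz⟩ : ℍ)),
      ModularForm.coe_heckeMatrix_smul hℓ]

theorem exists_const_of_hasDerivAt_eq {F G : ℍ → ℂ} {f : ℍ → ℂ}
    (hF : ∀ τ : ℍ, HasDerivAt (F ∘ ofComplex) (f τ) ↑τ)
    (hG : ∀ τ : ℍ, HasDerivAt (G ∘ ofComplex) (f τ) ↑τ) : ∃ c, ∀ τ, F τ = G τ + c := by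
  have hopen : IsOpen {z : ℂ | 0 < z.im} := isOpen_lt continuous_const Complex.continuous_im
  obtain ⟨c, hc⟩ := hopen.exists_eq_add_of_deriv_eq (convex_halfSpace_im_gt 0).isPreconnected
    (f := F ∘ ofComplex) (g := G ∘ ofComplex)
    (fun z hz => (hF ⟨z, hz⟩).differentiableAt.differentiableWithinAt)
    (fun z hz => (hG ⟨z, hz⟩).differentiableAt.differentiableWithinAt)
    (fun z hz => by
      have h1 := (hF ⟨z, hz⟩).deriv
      have h2 := (hG ⟨z, hz⟩).deriv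
      simp only at h1 h2
      rw [h1, h2])
  refine ⟨c, fun τ => ?_⟩
  have := hc τ.im_pos
  simpa [ofComplex_apply] using this

/-- periods commute with the Hecke operators -/
theorem periodMap_hOp (f : CuspForm (Gamma0 N) 2) {F F' : ℍ → ℂ}
    (hF : HasEquivariantPrimitive N f F) (hF' : HasEquivariantPrimitive N (hOp N ℓ f) F') :
    hF'.2.2.1.periodHom = cohHecke ℓ hF.2.2.1.periodHom := by
  have hG : ∀ τ : ℍ, HasDerivAt ((fun τ => ∑ x : Idx N ℓ, F (rep x • τ)) ∘ ofComplex)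
      (hOp N ℓ f τ) ↑τ := fun τ => by
    rw [hOp_apply]
    exact HasDerivAt.fun_sum fun x _ => hasDerivAt_comp_rep x hF.1 τ
  obtain ⟨c, hc⟩ := exists_const_of_hasDerivAt_eq hF'.1 hG
  refine AddMonoidHom.ext fun γ => ?_
  obtain ⟨γ, rfl⟩ := Additive.ofMul.surjective γ
  have hE : ∀ (g : Gamma0 N) (τ : ℍ), F ((mapGL ℝ (g : SL(2, ℤ)) : GL (Fin 2) ℝ) • τ) =
      hF.2.2.1.periodHom (Additive.ofMul g) + F τ := fun g τ => by
    rw [IsEquivariantPrimitive.periodHom_apply, ← hF.2.2.1.sub_eq_period g τ, sub_add_cancel]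
    rfl
  rw [IsEquivariantPrimitive.periodHom_apply, ← hF'.2.2.1.sub_eq_period γ UpperHalfPlane.I, hc, hc]
  have := sum_rep_smul_sub ℓ F hF.2.2.1.periodHom hE γ UpperHalfPlane.I
  show (∑ x : Idx N ℓ, F (rep x • (mapGL ℝ (γ : SL(2, ℤ)) : GL (Fin 2) ℝ) • UpperHalfPlane.I)) + c - _ = _
  rw [this]
  ring

end Periods

end Fermat.Agent.HeckeJ0
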