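import Fermat.Agent.HeckeJ0.Act
import Fermat.Agent.HeckeJ0.Correspondence
import Fermat.Agent.X0Analytic.Modular
import Fermat.Prelude.Def_ModularCurve_HeckeModule
import Mathlib.FieldTheory.PrimitiveElement
import Mathlib.FieldTheory.IsAlgClosed.AlgebraicClosure
import Fermat.Agent.Reduction.Instances

/-!
# The norm of `β f` along `α` as a product over Hecke representatives
-/

set_option autoImplicit false
set_option linter.style.haveILetI false

noncomputable section

open Matrix.SpecialLinearGroup CongruenceSubgroup UpperHalfPlane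
open scoped MatrixGroups
open AlgebraicCurve ModularCurve
open Fermat.Agent.X0Analytic
open scoped Fermat.Agent.Reduction

namespace Fermat.Agent.HeckeJ0

local notation "ℚbar" => AlgebraicClosure ℚ

theorem scaledJ_mdiff (d : ℕ) [NeZero d] : scaledJ d ∈ holFun :=
  mem_holFun.mpr ((scaledJ_mem (N := d) dvd_rfl).1)

/-- `j(dτ)` in `Hol` -/
def jHol (d : ℕ) [NeZero d] : Hol := ⟨scaledJ d, scaledJ_mdiff d⟩

/-- `j(q^d)` in the function field -/
def jGenBar (M d : ℕ) [NeZero d] (hd : d ∣ M) : modularFunctionFieldBar M :=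
  ⟨coeffEmb ℚbar (qExpand ℚ d jq), coeffEmb_mem_laurentBaseChange ℚbar (jqd_mem_full M hd)⟩

/-- realisation of the function fields inside meromorphic functions on `ℍ` -/
structure MerModel where
  /-- embedding of the constants -/
  emb : ℚbar →+* ℂ
  /-- the embedding of the function field of level `M` -/
  ι : ∀ (M : ℕ) [NeZero M], modularFunctionFieldBar M →+* Mer
  ι_const : ∀ (M : ℕ) [NeZero M] (c : ℚbar),
    ι M (algebraMap ℚbar (modularFunctionFieldBar M) c) =
      algebraMap Hol Mer (algebraMap ℂ Hol (emb c))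
  ι_jGen : ∀ (M : ℕ) [NeZero M] (d : ℕ) [NeZero d] (hd : d ∣ M),
    ι M (jGenBar M d hd) = algebraMap Hol Mer (jHol d)

theorem ringHom_ext_adjoin {F L E : Type*} [Field F] [Field L] [Algebra F L] [Field E] {S : Set L}
    (φ ψ : IntermediateField.adjoin F S →+* E)
    (hc : ∀ c : F, φ (algebraMap F _ c) = ψ (algebraMap F _ c))
    (hS : ∀ w (hw : w ∈ S), φ ⟨w, IntermediateField.subset_adjoin F S hw⟩ =
      ψ ⟨w, IntermediateField.subset_adjoin F S hw⟩) : φ = ψ := by
  refine RingHom.ext fun x => ?_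
  obtain ⟨x, hx⟩ := x
  induction hx using IntermediateField.adjoin_induction with
  | mem w hw => exact hS w hw
  | algebraMap c => exact hc c
  | add a b ha hb iha ihb =>
    exact (map_add φ ⟨a, ha⟩ ⟨b, hb⟩).trans ((congrArg₂ (· + ·) iha ihb).trans (map_add ψ _ _).symm)
  | inv a ha iha =>
    exact (map_inv₀ φ ⟨a, ha⟩).trans ((congrArg (·⁻¹) iha).trans (map_inv₀ ψ _).symm)
  | mul a b ha hb iha ihb =>
    exact (map_mul φ ⟨a, ha⟩ ⟨b, hb⟩).trans ((congrArg₂ (· * ·) iha ihb).trans (map_mul ψ _ _).symm)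

/-- the inclusion of the rational function field -/
def coeffInclBar (M : ℕ) : modularFunctionFieldFull M →+* modularFunctionFieldBar M :=
  ((coeffEmb ℚbar).comp (modularFunctionFieldFull M).subtype).codRestrict
    (modularFunctionFieldBar M) fun w => coeffEmb_mem_laurentBaseChange ℚbar w.2

theorem ringHom_ext_modularFunctionFieldBar {M : ℕ} [NeZero M] {E : Type*} [Field E]
    (φ ψ : modularFunctionFieldBar M →+* E)
    (hc : ∀ c : ℚbar, φ (algebraMap ℚbar (modularFunctionFieldBar M) c) =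
      ψ (algebraMap ℚbar (modularFunctionFieldBar M) c))
    (hj : ∀ (d : ℕ) [NeZero d] (hd : d ∣ M), φ (jGenBar M d hd) = ψ (jGenBar M d hd)) : φ = ψ := by
  let φ₀ : IntermediateField.adjoin ℚ (divisorExpansions M) →+* E := φ.comp (coeffInclBar M)
  let ψ₀ : IntermediateField.adjoin ℚ (divisorExpansions M) →+* E := ψ.comp (coeffInclBar M)
  have hfull : φ₀ = ψ₀ := by
    refine ringHom_ext_adjoin φ₀ ψ₀ (fun c => ?_) ?_
    · rw [eq_ratCast, map_ratCast, map_ratCast]
    · rintro w ⟨d, hne, hd, rfl⟩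
      exact hj d hd
  refine ringHom_ext_adjoin (F := ℚbar) (L := LaurentSeries ℚbar)
    (S := ⇑(coeffEmb ℚbar) '' (modularFunctionFieldFull M : Set (LaurentSeries ℚ))) φ ψ hc ?_
  rintro w ⟨z, hz, rfl⟩
  exact RingHom.congr_fun hfull ⟨z, hz⟩

theorem act_const {g : GL (Fin 2) ℝ} (hg : 0 < g.det.val) (c : ℂ) :
    act g (algebraMap Hol Mer (algebraMap ℂ Hol c)) = algebraMap Hol Mer (algebraMap ℂ Hol c) := by
  rw [act_algebraMap hg, AlgHom.commutes]

namespace MerModel

variable (Φ : MerModel) (N ℓ : ℕ) [NeZero N] [NeZero ℓ]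

theorem ι_heckeAlphaBar (x : modularFunctionFieldBar N) :
    Φ.ι (N * ℓ) (heckeAlphaBar ℚbar N ℓ x) = Φ.ι N x := by
  revert x
  rw [← funext_iff]
  refine congrArg DFunLike.coe (ringHom_ext_modularFunctionFieldBar
    ((Φ.ι (N * ℓ)).comp (heckeAlphaBar ℚbar N ℓ).toRingHom) (Φ.ι N) (fun c => ?_)
    fun d _ hd => ?_)
  · show Φ.ι (N * ℓ) (heckeAlphaBar ℚbar N ℓ (algebraMap ℚbar _ c)) = _
    rw [AlgHom.commutes, Φ.ι_const, Φ.ι_const]
  · show Φ.ι (N * ℓ) (heckeAlphaBar ℚbar N ℓ (jGenBar N d hd)) = _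
    rw [show heckeAlphaBar ℚbar N ℓ (jGenBar N d hd) = jGenBar (N * ℓ) d (hd.trans (dvd_mul_right N ℓ))
      from Subtype.ext (coe_heckeAlphaBar N ℓ _), Φ.ι_jGen, Φ.ι_jGen]

theorem ι_heckeBetaBar (x : modularFunctionFieldBar N) :
    Φ.ι (N * ℓ) (heckeBetaBar ℚbar N ℓ x) = act (scaleGL ℓ) (Φ.ι N x) := by
  revert x
  rw [← funext_iff]
  refine congrArg DFunLike.coe (ringHom_ext_modularFunctionFieldBar
    ((Φ.ι (N * ℓ)).comp (heckeBetaBar ℚbar N ℓ).toRingHom) ((act (scaleGL ℓ)).comp (Φ.ι N))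
    (fun c => ?_) fun d _ hd => ?_)
  · show Φ.ι (N * ℓ) (heckeBetaBar ℚbar N ℓ (algebraMap ℚbar _ c)) = act _ (Φ.ι N _)
    rw [AlgHom.commutes, Φ.ι_const, Φ.ι_const, act_const (det_pos_scaleGL ℓ)]
  · haveI : NeZero (d * ℓ) := ⟨mul_ne_zero (NeZero.ne d) (NeZero.ne ℓ)⟩
    have hb : heckeBetaBar ℚbar N ℓ (jGenBar N d hd) =
        jGenBar (N * ℓ) (d * ℓ) (mul_dvd_mul_right hd ℓ) := by
      refine Subtype.ext ((coe_heckeBetaBar N ℓ _).trans ?_)
      show qExpand ℚbar ℓ (coeffEmb ℚbar (qExpand ℚ d jq)) =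
        coeffEmb ℚbar (qExpand ℚ (d * ℓ) jq)
      haveI : NeZero (ℓ * d) := ⟨mul_ne_zero (NeZero.ne ℓ) (NeZero.ne d)⟩
      rw [qExpand_congr (mul_comm d ℓ), ← qExpand_qExpand]
      ext k
      by_cases hk : (ℓ : ℤ) ∣ k
      · obtain ⟨m, rfl⟩ := hk
        rw [coeffEmb_coeff, qExpand_coeff_mul, qExpand_coeff_mul, coeffEmb_coeff]
      · rw [coeffEmb_coeff, qExpand_coeff_of_not_dvd ℓ _ hk, qExpand_coeff_of_not_dvd ℓ _ hk,
          map_zero]
    show Φ.ι (N * ℓ) (heckeBetaBar ℚbar N ℓ (jGenBar N d hd)) = act _ (Φ.ι N _)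
    rw [hb, Φ.ι_jGen, Φ.ι_jGen, act_algebraMap (det_pos_scaleGL ℓ)]
    refine congrArg _ (Subtype.ext (funext fun τ => ?_))
    show jFun (scaleGL (d * ℓ) • τ) = jFun (scaleGL d • scaleGL ℓ • τ)
    refine congrArg jFun (UpperHalfPlane.ext ?_)
    rw [coe_scaleGL_smul, coe_scaleGL_smul, coe_scaleGL_smul]
    push_cast
    ring

/-- `Γ₀(N)` fixes the image -/
theorem act_ι (γ : Gamma0 N) (x : modularFunctionFieldBar N) :
    act (mapGL ℝ (γ : SL(2, ℤ))) (Φ.ι N x) = Φ.ι N x := by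
  revert x
  rw [← funext_iff]
  refine congrArg DFunLike.coe (ringHom_ext_modularFunctionFieldBar
    ((act (mapGL ℝ (γ : SL(2, ℤ)))).comp (Φ.ι N)) (Φ.ι N) (fun c => ?_) fun d _ hd => ?_)
  · show act _ (Φ.ι N (algebraMap ℚbar _ c)) = _
    rw [Φ.ι_const, act_const (det_pos_mapGL _)]
  · show act _ (Φ.ι N (jGenBar N d hd)) = _
    rw [Φ.ι_jGen, act_algebraMap (det_pos_mapGL _)]
    exact congrArg _ (Subtype.ext (funext fun τ => scaledJ_smul_of_mem hd γ.2 τ))

/-- the twist by the Fricke matrix -/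
def ιW : modularFunctionFieldBar N →+* Mer := (act (fricke N)).comp (Φ.ι N)

theorem act_ιW (γ : Gamma0 N) (x : modularFunctionFieldBar N) :
    act (mapGL ℝ (γ : SL(2, ℤ))) (Φ.ιW N x) = Φ.ιW N x := by
  show act _ (act _ (Φ.ι N x)) = act _ (Φ.ι N x)
  rw [← act_mul (det_pos_fricke N) (det_pos_mapGL _), ← frickeConj_mul_fricke,
    act_mul (det_pos_mapGL _) (det_pos_fricke N), Φ.act_ι]

section NormFormula

variable [Fact ℓ.Prime]

/-- the conjugate attached to a representative -/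
def conjHom (x : Idx N ℓ) : modularFunctionFieldBar (N * ℓ) →+* Mer :=
  (act (mapGL ℝ (frickeConj (gammaOf x) : SL(2, ℤ)))).comp (Φ.ι (N * ℓ))

theorem conjHom_alpha (x : Idx N ℓ) (a : modularFunctionFieldBar N) :
    Φ.conjHom N ℓ x (heckeAlphaBar ℚbar N ℓ a) = Φ.ι N a := by
  show act _ (Φ.ι (N * ℓ) _) = _
  rw [Φ.ι_heckeAlphaBar, Φ.act_ι]

theorem conjHom_injective : Function.Injective (Φ.conjHom N ℓ) := by
  intro x y h
  have hd : N * ℓ ∣ N * ℓ := dvd_rfl
  have h1 := RingHom.congr_fun h (jGenBar (N * ℓ) (N * ℓ) hd)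
  simp only [conjHom, RingHom.comp_apply, Φ.ι_jGen, act_algebraMap (det_pos_mapGL _)] at h1
  have h2 := congrArg Subtype.val (IsFractionRing.injective Hol Mer h1)
  set u : Gamma0 N := gammaOf x * (gammaOf y)⁻¹ with hu
  have hfu : frickeConj (gammaOf x) = frickeConj u * frickeConj (gammaOf y) := by
    rw [← frickeConj_mul, hu, inv_mul_cancel_right]
  have hmem : (frickeConj u : SL(2, ℤ)) ∈ Gamma0 (N * ℓ) := by
    refine mem_Gamma0_of_scaledJ_eq fun τ => ?_
    have h3 := congrFun h2 ((frickeConj (gammaOf y) : SL(2, ℤ))⁻¹ • τ)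
    simp only [preComp_apply] at h3
    calc scaledJ (N * ℓ) ((frickeConj u : SL(2, ℤ)) • τ)
        = scaledJ (N * ℓ) ((frickeConj (gammaOf x) : SL(2, ℤ)) •
            (frickeConj (gammaOf y) : SL(2, ℤ))⁻¹ • τ) := by
          rw [← mul_smul, hfu, Subgroup.coe_mul, mul_inv_cancel_right]
      _ = scaledJ (N * ℓ) ((frickeConj (gammaOf y) : SL(2, ℤ)) •
            (frickeConj (gammaOf y) : SL(2, ℤ))⁻¹ • τ) := h3
      _ = _ := by rw [smul_inv_smul]
  rw [mem_Gamma0_iff_dvd, frickeConj_lowerLeft, dvd_neg, Nat.cast_mul] at hmem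
  refine eq_of_dvd_upperRight u (by rw [hu, inv_mul_cancel_right]) ?_
  exact Int.dvd_of_mul_dvd_mul_left (by exact_mod_cast NeZero.ne N) hmem

/-- the degree hypothesis -/
def DegreeAlpha : Prop :=
  FiniteAlong ℚbar (heckeAlphaBar ℚbar N ℓ) ∧
    finrankAlong ℚbar (heckeAlphaBar ℚbar N ℓ) = Fintype.card (Idx N ℓ)

theorem ι_normAlong_alpha (hdeg : DegreeAlpha N ℓ) (y : modularFunctionFieldBar (N * ℓ)) :
    Φ.ι N (normAlong (heckeAlphaBar ℚbar N ℓ) y) = ∏ x : Idx N ℓ, Φ.conjHom N ℓ x y := by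
  letI : Algebra (modularFunctionFieldBar N) (modularFunctionFieldBar (N * ℓ)) :=
    algebraAlong (heckeAlphaBar ℚbar N ℓ)
  haveI : Module.Finite (modularFunctionFieldBar N) (modularFunctionFieldBar (N * ℓ)) := hdeg.1
  haveI : CharZero (modularFunctionFieldBar N) :=
    charZero_of_injective_algebraMap
      (algebraMap ℚbar (modularFunctionFieldBar N)).injective
  letI : Algebra (modularFunctionFieldBar N) (AlgebraicClosure Mer) :=
    ((algebraMap Mer (AlgebraicClosure Mer)).comp (Φ.ι N)).toAlgebra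
  let σ : Idx N ℓ → (modularFunctionFieldBar (N * ℓ) →ₐ[modularFunctionFieldBar N] AlgebraicClosure Mer) :=
    fun x => { (algebraMap Mer (AlgebraicClosure Mer)).comp (Φ.conjHom N ℓ x) with
      commutes' := fun a => congrArg (algebraMap Mer (AlgebraicClosure Mer)) (Φ.conjHom_alpha N ℓ x a) }
  have hσ : Function.Injective σ := fun a b h => Φ.conjHom_injective N ℓ <| RingHom.ext fun z =>
    (algebraMap Mer (AlgebraicClosure Mer)).injective (AlgHom.congr_fun h z)
  have hbij : Function.Bijective σ := by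
    refine (Fintype.bijective_iff_injective_and_card σ).mpr ⟨hσ, ?_⟩
    rw [AlgHom.card]
    exact hdeg.2.symm
  apply (algebraMap Mer (AlgebraicClosure Mer)).injective
  rw [map_prod]
  calc algebraMap Mer (AlgebraicClosure Mer) (Φ.ι N (normAlong (heckeAlphaBar ℚbar N ℓ) y))
      = algebraMap (modularFunctionFieldBar N) (AlgebraicClosure Mer)
          (Algebra.norm (modularFunctionFieldBar N) y) := rfl
    _ = ∏ τ : modularFunctionFieldBar (N * ℓ) →ₐ[modularFunctionFieldBar N] AlgebraicClosure Mer,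
          τ y := Algebra.norm_eq_prod_embeddings _ _ y
    _ = ∏ x : Idx N ℓ, σ x y :=
        (Fintype.prod_bijective σ hbij _ _ fun _ => rfl).symm

theorem scaleGL_mul_fricke : scaleGL ℓ * fricke N = fricke N * rep (idx0 N ℓ) := by
  refine Units.ext ?_
  rw [Units.val_mul, Units.val_mul, val_fricke, isTri_rep_idx0]
  ext i j
  fin_cases i <;> fin_cases j <;> simp [scaleGL]

/-- the main formula: `T` is the product over the standard representatives, after the twist -/
theorem ιW_normAlong_beta (hdeg : DegreeAlpha N ℓ) (f : modularFunctionFieldBar N) :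
    Φ.ιW N (normAlong (heckeAlphaBar ℚbar N ℓ) (heckeBetaBar ℚbar N ℓ f)) =
      ∏ x : Idx N ℓ, act (rep x) (Φ.ιW N f) := by
  show act (fricke N) (Φ.ι N _) = _
  rw [Φ.ι_normAlong_alpha N ℓ hdeg, map_prod]
  refine Finset.prod_congr rfl fun x _ => ?_
  show act (fricke N) (act _ (Φ.ι (N * ℓ) (heckeBetaBar ℚbar N ℓ f))) = _
  rw [Φ.ι_heckeBetaBar]
  set γ := mapGL ℝ (frickeConj (gammaOf x) : SL(2, ℤ)) with hγ
  have hp := det_pos_scaleGL ℓ
  have hq : 0 < γ.det.val := det_pos_mapGL _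
  rw [← act_mul hq (det_pos_fricke N), ← act_mul hp (det_pos_mul hq (det_pos_fricke N))]
  have hmat : scaleGL ℓ * (γ * fricke N) =
      fricke N * (mapGL ℝ (gOf (idx0 N ℓ) (gammaOf x) : SL(2, ℤ)) * rep x) := by
    rw [hγ, frickeConj_mul_fricke, ← mul_assoc, scaleGL_mul_fricke, mul_assoc, rep_mul,
      permOf_gammaOf]
  rw [hmat, act_mul (det_pos_fricke N) (det_pos_mul (det_pos_mapGL _) (det_pos_rep x)),
    act_mul (det_pos_mapGL _) (det_pos_rep x)]
  exact congrArg (act (rep x)) (Φ.act_ιW N _ f)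

end NormFormula

end MerModel

section Comm

variable (Φ : MerModel) (N ℓ m : ℕ) [NeZero N] [NeZero ℓ] [NeZero m] [Fact ℓ.Prime] [Fact m.Prime]

include Φ in
/-- Norm operators commute, given the degrees of `α`. -/
theorem normAlong_comm (hℓ : MerModel.DegreeAlpha N ℓ) (hm : MerModel.DegreeAlpha N m)
    (f : modularFunctionFieldBar N) :
    normAlong (heckeAlphaBar ℚbar N m)
        (heckeBetaBar ℚbar N m (normAlong (heckeAlphaBar ℚbar N ℓ) (heckeBetaBar ℚbar N ℓ f))) =
      normAlong (heckeAlphaBar ℚbar N ℓ)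
        (heckeBetaBar ℚbar N ℓ (normAlong (heckeAlphaBar ℚbar N m) (heckeBetaBar ℚbar N m f))) := by
  apply (MerModel.ιW Φ N).injective
  simp only [Φ.ιW_normAlong_beta N ℓ hℓ, Φ.ιW_normAlong_beta N m hm, map_prod]
  rcases eq_or_ne ℓ m with rfl | hne
  · rfl
  obtain ⟨e, he⟩ := exists_swap_equiv (N := N) hne
  rw [← Finset.prod_product', ← Finset.prod_product', Finset.univ_product_univ,
    Finset.univ_product_univ]
  calc ∏ p : Idx N m × Idx N ℓ, act (rep p.1) (act (rep p.2) (Φ.ιW N f))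
      = ∏ q : Idx N ℓ × Idx N m, act (rep q.1 * rep q.2) (Φ.ιW N f) := by
        refine Fintype.prod_equiv (Equiv.prodComm _ _) _ _ fun p => ?_
        simp only [Equiv.prodComm_apply, Prod.fst_swap, Prod.snd_swap]
        rw [act_mul (det_pos_rep _) (det_pos_rep _)]
    _ = ∏ q : Idx N ℓ × Idx N m, act (rep (e q).1 * rep (e q).2) (Φ.ιW N f) := by
        refine Finset.prod_congr rfl fun q _ => ?_
        obtain ⟨g, hg⟩ := he q
        rw [hg, act_mul (det_pos_mapGL _) (det_pos_mul (det_pos_rep _) (det_pos_rep _)), Φ.act_ιW]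
    _ = ∏ p : Idx N ℓ × Idx N m, act (rep p.1) (act (rep p.2) (Φ.ιW N f)) := by
        refine Fintype.prod_equiv (e.trans (Equiv.prodComm _ _)) _ _ fun q => ?_
        simp only [Equiv.trans_apply, Equiv.prodComm_apply, Prod.fst_swap, Prod.snd_swap]
        rw [act_mul (det_pos_rep _) (det_pos_rep _)]

end Comm

end Fermat.Agent.HeckeJ0
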