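import Mathlib.NumberTheory.ModularForms.CongruenceSubgroups
import Mathlib.Algebra.Field.ZMod
import Mathlib.Topology.Compactification.OnePoint.ProjectiveLine
import Mathlib.Analysis.Complex.UpperHalfPlane.MoebiusAction
import Fermat.Prelude.Def_ModularForm_HeckeOperator
import Fermat.Prelude.Sol.S_ModularForm_heckeT_slash_eq_self_of_mem_Gamma0

/-!
# Coset representatives of the Hecke double cosets

`Idx N ℓ` indexes the standard representatives `(1 j; 0 ℓ)` (`j` mod `ℓ`), together with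
`(ℓ 0; 0 1)` when `ℓ ∤ N`, of the left cosets of `Γ₀(N)` in the Hecke double coset.
-/

set_option autoImplicit false

noncomputable section

open Matrix.SpecialLinearGroup CongruenceSubgroup
open scoped MatrixGroups UpperHalfPlane OnePoint

namespace Fermat.Agent.HeckeJ0

/-- index type of the standard Hecke representatives at level `N` and prime `ℓ` -/
def Idx (N ℓ : ℕ) : Type := {x : OnePoint (ZMod ℓ) // ℓ ∣ N → x ≠ ∞}

instance (N ℓ : ℕ) [NeZero ℓ] : Fintype (Idx N ℓ) := by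
  classical
  unfold Idx
  infer_instance

instance (N ℓ : ℕ) : DecidableEq (Idx N ℓ) := Classical.decEq _

/-- the standard representative attached to an index -/
def rep {N ℓ : ℕ} (x : Idx N ℓ) : GL (Fin 2) ℝ :=
  P2MW.S_ModularForm_heckeT_slash_eq_self_of_mem_Gamma0.ModularForm.HeckeSlashInvariance.heckeRep
    ℓ x.1

theorem mem_Gamma0_iff_dvd {N : ℕ} (g : SL(2, ℤ)) :
    g ∈ Gamma0 N ↔ (N : ℤ) ∣ g 1 0 := by
  rw [Gamma0_mem, ZMod.intCast_zmod_eq_zero_iff_dvd]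

theorem exists_rep_mul {N ℓ : ℕ} [Fact ℓ.Prime] (γ : Gamma0 N) :
    ∃ e : Equiv.Perm (Idx N ℓ), ∀ x : Idx N ℓ, ∃ g : Gamma0 N,
      rep x * mapGL ℝ (γ : SL(2, ℤ)) = mapGL ℝ (g : SL(2, ℤ)) * rep (e x) := by
  open P2MW.S_ModularForm_heckeT_slash_eq_self_of_mem_Gamma0.ModularForm.HeckeSlashInvariance in
  have : NeZero ℓ := ⟨(Fact.out : ℓ.Prime).ne_zero⟩
  have hγ : (N : ℤ) ∣ (γ : SL(2, ℤ)) 1 0 := (mem_Gamma0_iff_dvd _).mp γ.2
  by_cases hℓN : ℓ ∣ N
  · have hc : (ℓ : ℤ) ∣ (γ : SL(2, ℤ)) 1 0 := (Int.natCast_dvd_natCast.mpr hℓN).trans hγ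
    have hc0 : (((γ : SL(2, ℤ)) 1 0 : ℤ) : ZMod ℓ) = 0 :=
      (ZMod.intCast_zmod_eq_zero_iff_dvd _ _).mpr hc
    let e₀ : Equiv.Perm (ZMod ℓ) := affinePerm (γ : SL(2, ℤ)) hc0
    have hcoe : ∀ x : Idx N ℓ, ∃ j : ZMod ℓ, x.1 = (j : OnePoint (ZMod ℓ)) := by
      intro x
      obtain ⟨j, hj⟩ := OnePoint.ne_infty_iff_exists.mp (x.2 hℓN)
      exact ⟨j, hj.symm⟩
    let toIdx : ZMod ℓ → Idx N ℓ := fun j => ⟨(j : OnePoint (ZMod ℓ)), fun _ => OnePoint.coe_ne_infty j⟩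
    have hto : Function.Bijective toIdx := by
      refine ⟨fun a b h => OnePoint.coe_injective (congrArg Subtype.val h), fun x => ?_⟩
      obtain ⟨j, hj⟩ := hcoe x
      exact ⟨j, Subtype.ext hj.symm⟩
    let E := Equiv.ofBijective toIdx hto
    refine ⟨(E.symm.trans e₀).trans E, fun x => ?_⟩
    obtain ⟨j, rfl⟩ := E.surjective x
    obtain ⟨g', hg', hmul⟩ := heckeMatrix_mul_of_dvd (γ : SL(2, ℤ)) hc j
    refine ⟨⟨g', (mem_Gamma0_iff_dvd _).mpr (hg' ▸ dvd_mul_of_dvd_right hγ _)⟩, ?_⟩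
    simp only [Equiv.trans_apply, Equiv.symm_apply_apply]
    exact hmul
  · let toIdx : OnePoint (ZMod ℓ) → Idx N ℓ := fun x => ⟨x, fun h => absurd h hℓN⟩
    let E : OnePoint (ZMod ℓ) ≃ Idx N ℓ :=
      ⟨toIdx, fun x => x.1, fun _ => rfl, fun _ => rfl⟩
    refine ⟨(E.symm.trans (MulAction.toPerm (redMatrix ℓ (γ : SL(2, ℤ))))).trans E, fun x => ?_⟩
    obtain ⟨g', hg', hmul⟩ := heckeRep_mul hℓN (γ : SL(2, ℤ)) hγ x.1
    exact ⟨⟨g', (mem_Gamma0_iff_dvd _).mpr hg'⟩, hmul⟩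

section Uniqueness

/-- `T` is the integral upper triangular matrix with entries `a b d` -/
def IsTri (T : GL (Fin 2) ℝ) (a b d : ℕ) : Prop :=
  (T : Matrix (Fin 2) (Fin 2) ℝ) = !![(a : ℝ), (b : ℝ); 0, (d : ℝ)]

theorem IsTri.mul {S T : GL (Fin 2) ℝ} {a b d a' b' d' : ℕ} (h : IsTri S a b d)
    (h' : IsTri T a' b' d') : IsTri (S * T) (a * a') (a * b' + b * d') (d * d') := by
  unfold IsTri at *
  rw [Units.val_mul, h, h']
  ext i j
  fin_cases i <;> fin_cases j <;> simp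

theorem IsTri.unique {S T : GL (Fin 2) ℝ} {a b d a' b' d' : ℕ} (h : IsTri S a b d)
    (h' : IsTri T a' b' d') (ha : 0 < a) (_hd : 0 < d) (g : SL(2, ℤ))
    (hg : mapGL ℝ g * S = T) : a = a' ∧ d = d' ∧ (d : ℤ) ∣ (b' : ℤ) - b := by
  have e : ((mapGL ℝ g : GL (Fin 2) ℝ) : Matrix (Fin 2) (Fin 2) ℝ) *
      !![(a : ℝ), (b : ℝ); 0, (d : ℝ)] = !![(a' : ℝ), (b' : ℝ); 0, (d' : ℝ)] := by
    rw [← h, ← h', ← hg, Units.val_mul]
  have e00 := congrFun (congrFun e 0) 0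
  have e01 := congrFun (congrFun e 0) 1
  have e10 := congrFun (congrFun e 1) 0
  have e11 := congrFun (congrFun e 1) 1
  simp [Matrix.mul_apply, Fin.sum_univ_two] at e00 e01 e10 e11
  have hc : g 1 0 = 0 := by
    rcases e10 with h0 | h0
    · exact_mod_cast h0
    · omega
  have hdet : g 0 0 * g 1 1 = 1 := by
    have := g.det_coe
    rw [Matrix.det_fin_two, hc] at this
    linarith
  have i00 : g 0 0 * a = a' := by exact_mod_cast e00
  have i01 : g 0 0 * b + g 0 1 * d = b' := by exact_mod_cast e01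
  have i11 : g 1 0 * b + g 1 1 * d = d' := by exact_mod_cast e11
  rw [hc, zero_mul, zero_add] at i11
  rcases Int.eq_one_or_neg_one_of_mul_eq_one hdet with h1 | h1
  · rw [h1, one_mul] at hdet i00 i01
    rw [hdet, one_mul] at i11
    refine ⟨by exact_mod_cast i00, by exact_mod_cast i11, g 0 1, ?_⟩
    linarith
  · rw [h1] at i00
    omega

theorem val_mapGL_apply (g : SL(2, ℤ)) (i j : Fin 2) :
    ((mapGL ℝ g : GL (Fin 2) ℝ) : Matrix (Fin 2) (Fin 2) ℝ) i j = ((g i j : ℤ) : ℝ) :=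
  rfl

theorem IsTri.exists_eq_mul {N : ℕ} {S T : GL (Fin 2) ℝ} {a b b' d : ℕ} (h : IsTri S a b d)
    (h' : IsTri T a b' d) (hb : (d : ℤ) ∣ (b' : ℤ) - b) :
    ∃ g : Gamma0 N, T = mapGL ℝ (g : SL(2, ℤ)) * S := by
  obtain ⟨k, hk⟩ := hb
  let g : SL(2, ℤ) := ⟨!![1, k; 0, 1], by simp [Matrix.det_fin_two_of]⟩
  have hg : ((mapGL ℝ g : GL (Fin 2) ℝ) : Matrix (Fin 2) (Fin 2) ℝ) = !![1, (k : ℝ); 0, 1] := by
    ext i j
    rw [val_mapGL_apply]
    fin_cases i <;> fin_cases j <;> simp [g]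
  refine ⟨⟨g, (mem_Gamma0_iff_dvd _).mpr (by simp [g])⟩, Units.ext ?_⟩
  rw [Units.val_mul, hg, h, h']
  have hk' : (b' : ℝ) = b + k * d := by
    have : (b' : ℤ) = b + k * d := by linarith
    exact_mod_cast this
  ext i j
  fin_cases i <;> fin_cases j <;> simp [Matrix.mul_apply, Fin.sum_univ_two, hk']

end Uniqueness

section Entries

variable {N ℓ : ℕ} [Fact ℓ.Prime]

/-- every representative is `(1 j; 0 ℓ)` with `j < ℓ`, or `(ℓ 0; 0 1)` and `ℓ ∤ N` -/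
theorem rep_cases (x : Idx N ℓ) :
    (∃ j : ZMod ℓ, x.1 = (j : OnePoint (ZMod ℓ)) ∧ IsTri (rep x) 1 j.val ℓ) ∨
      (x.1 = ∞ ∧ ¬ ℓ ∣ N ∧ IsTri (rep x) ℓ 0 1) := by
  have hℓ : ℓ ≠ 0 := (Fact.out : ℓ.Prime).ne_zero
  obtain ⟨x, hx⟩ := x
  induction x using OnePoint.rec with
  | infty =>
    refine Or.inr ⟨rfl, fun h => hx h rfl, ?_⟩
    unfold IsTri
    show ((ModularForm.heckeDiagMatrix ℓ : GL (Fin 2) ℝ) : Matrix (Fin 2) (Fin 2) ℝ) = _
    rw [ModularForm.val_heckeDiagMatrix hℓ]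
    simp
  | coe j =>
    refine Or.inl ⟨j, rfl, ?_⟩
    unfold IsTri
    show ((ModularForm.heckeMatrix ℓ j.val : GL (Fin 2) ℝ) : Matrix (Fin 2) (Fin 2) ℝ) = _
    rw [ModularForm.val_heckeMatrix hℓ]
    simp

theorem eq_of_dvd_sub {n : ℕ} [NeZero n] {i j : ZMod n} (h : (n : ℤ) ∣ (i.val : ℤ) - j.val) :
    i = j := by
  rw [← ZMod.intCast_zmod_eq_zero_iff_dvd] at h
  push_cast at h
  simpa [sub_eq_zero] using h

theorem rep_unique {x y : Idx N ℓ} (g : SL(2, ℤ)) (h : mapGL ℝ g * rep x = rep y) : x = y := by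
  have hℓ : 1 < ℓ := (Fact.out : ℓ.Prime).one_lt
  rcases rep_cases x with ⟨j, hj, hx⟩ | ⟨hj, -, hx⟩ <;>
    rcases rep_cases y with ⟨i, hi, hy⟩ | ⟨hi, -, hy⟩ <;>
    obtain ⟨h1, h2, h3⟩ := hx.unique hy (by omega) (by omega) g h
  · exact Subtype.ext (by rw [hj, hi, eq_of_dvd_sub h3])
  · omega
  · omega
  · exact Subtype.ext (hj.trans hi.symm)

/-- the permutation of representatives attached to `γ` -/
def permOf (γ : Gamma0 N) : Equiv.Perm (Idx N ℓ) := (exists_rep_mul γ).choose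

/-- the transfer element attached to `x` and `γ` -/
def gOf (x : Idx N ℓ) (γ : Gamma0 N) : Gamma0 N := ((exists_rep_mul γ).choose_spec x).choose

theorem rep_mul (x : Idx N ℓ) (γ : Gamma0 N) :
    rep x * mapGL ℝ (γ : SL(2, ℤ)) = mapGL ℝ (gOf x γ : SL(2, ℤ)) * rep (permOf γ x) :=
  ((exists_rep_mul γ).choose_spec x).choose_spec

theorem mapGL_Gamma0_injective :
    Function.Injective fun g : Gamma0 N => (mapGL ℝ (g : SL(2, ℤ)) : GL (Fin 2) ℝ) :=
  fun _ _ h => Subtype.ext (Matrix.SpecialLinearGroup.mapGL_injective h)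

theorem perm_gOf_unique {x y : Idx N ℓ} {γ g : Gamma0 N}
    (h : rep x * mapGL ℝ (γ : SL(2, ℤ)) = mapGL ℝ (g : SL(2, ℤ)) * rep y) :
    permOf γ x = y ∧ gOf x γ = g := by
  rw [rep_mul] at h
  have hy : permOf γ x = y := by
    refine rep_unique ((g⁻¹ * gOf x γ : Gamma0 N) : SL(2, ℤ)) ?_
    rw [Subgroup.coe_mul, Subgroup.coe_inv, map_mul, map_inv, mul_assoc, h, inv_mul_cancel_left]
  refine ⟨hy, mapGL_Gamma0_injective ?_⟩
  rw [hy] at h
  exact mul_right_cancel h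

theorem permOf_mul (γ δ : Gamma0 N) (x : Idx N ℓ) :
    permOf (γ * δ) x = permOf δ (permOf γ x) ∧
      gOf x (γ * δ) = gOf x γ * gOf (permOf γ x) δ := by
  refine perm_gOf_unique ?_
  rw [Subgroup.coe_mul, Subgroup.coe_mul, map_mul, map_mul, ← mul_assoc, rep_mul, mul_assoc,
    rep_mul, mul_assoc]

end Entries

section Product

variable {N ℓ m : ℕ} [Fact ℓ.Prime] [Fact m.Prime]

theorem rep_rep_unique (hne : ℓ ≠ m) {x x' : Idx N ℓ} {y y' : Idx N m} (g : SL(2, ℤ))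
    (h : mapGL ℝ g * (rep x * rep y) = rep x' * rep y') : x = x' ∧ y = y' := by
  have hℓ : ℓ.Prime := Fact.out
  have hm : m.Prime := Fact.out
  have hℓ1 := hℓ.one_lt
  have hm1 := hm.one_lt
  have hcop : IsCoprime (m : ℤ) (ℓ : ℤ) :=
    Nat.isCoprime_iff_coprime.mpr ((Nat.coprime_primes hm hℓ).mpr fun h => hne h.symm)
  rcases rep_cases x with ⟨j, hj, hx⟩ | ⟨hj, -, hx⟩ <;>
    rcases rep_cases y with ⟨i, hi, hy⟩ | ⟨hi, -, hy⟩ <;>
    rcases rep_cases x' with ⟨j', hj', hx'⟩ | ⟨hj', -, hx'⟩ <;>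
    rcases rep_cases y' with ⟨i', hi', hy'⟩ | ⟨hi', -, hy'⟩ <;>
    obtain ⟨h1, h2, h3⟩ := (hx.mul hy).unique (hx'.mul hy') (by positivity) (by positivity) g h <;>
    simp only [one_mul, mul_one] at h1 h2 <;>
    try first | omega | (exfalso; nlinarith)
  · push_cast at h3
    have him : (m : ℤ) ∣ (i'.val : ℤ) - i.val := by
      obtain ⟨c, hc⟩ := h3
      exact ⟨(ℓ : ℤ) * c + j.val - j'.val, by linarith⟩
    obtain rfl : i' = i := eq_of_dvd_sub him
    have hjl : (ℓ : ℤ) ∣ (j'.val : ℤ) - j.val := by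
      obtain ⟨c, hc⟩ := h3
      exact ⟨c, mul_right_cancel₀ (Int.natCast_ne_zero.mpr hm.ne_zero) (by linarith)⟩
    exact ⟨Subtype.ext (by rw [hj, hj', eq_of_dvd_sub hjl]), Subtype.ext (hi.trans hi'.symm)⟩
  · push_cast at h3
    simp only [mul_one, zero_add] at h3
    exact ⟨Subtype.ext (by rw [hj, hj', eq_of_dvd_sub h3]), Subtype.ext (hi.trans hi'.symm)⟩
  · push_cast at h3
    simp only [one_mul, zero_mul, add_zero, ← mul_sub] at h3
    have hi2 : (m : ℤ) ∣ (i'.val : ℤ) - i.val := hcop.dvd_of_dvd_mul_left h3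
    exact ⟨Subtype.ext (hj.trans hj'.symm), Subtype.ext (by rw [hi, hi', eq_of_dvd_sub hi2])⟩
  · exact ⟨Subtype.ext (hj.trans hj'.symm), Subtype.ext (hi.trans hi'.symm)⟩

theorem exists_swap (hne : ℓ ≠ m) (x : Idx N ℓ) (y : Idx N m) :
    ∃ (q : Idx N m × Idx N ℓ) (g : Gamma0 N),
      rep x * rep y = mapGL ℝ (g : SL(2, ℤ)) * (rep q.1 * rep q.2) := by
  have hℓ : ℓ.Prime := Fact.out
  have hm : m.Prime := Fact.out
  rcases rep_cases x with ⟨j, hj, hx⟩ | ⟨hj, hℓN, hx⟩ <;>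
    rcases rep_cases y with ⟨i, hi, hy⟩ | ⟨hi, hmN, hy⟩
  · -- write `i + j m = a ℓ + b`
    let k : ℕ := i.val + j.val * m
    have hkm : k / ℓ < m := by
      rw [Nat.div_lt_iff_lt_mul hℓ.pos]
      have h1 := i.val_lt
      have h2 : (j.val + 1) * m ≤ ℓ * m := Nat.mul_le_mul_right _ j.val_lt
      have h3 : i.val + j.val * m < (j.val + 1) * m := by rw [add_mul, one_mul]; omega
      rw [mul_comm m ℓ]
      exact lt_of_lt_of_le h3 h2
    let y' : Idx N m := ⟨((k / ℓ : ℕ) : ZMod m), fun _ => OnePoint.coe_ne_infty _⟩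
    let x' : Idx N ℓ := ⟨((k % ℓ : ℕ) : ZMod ℓ), fun _ => OnePoint.coe_ne_infty _⟩
    refine ⟨(y', x'), ?_⟩
    rcases rep_cases y' with ⟨a, ha, hy'⟩ | ⟨ha, -, -⟩
    · rcases rep_cases x' with ⟨b, hb, hx'⟩ | ⟨hb, -, -⟩
      · obtain rfl := OnePoint.coe_injective ha
        obtain rfl := OnePoint.coe_injective hb
        have hyx : IsTri (rep y' * rep x') (1 * 1) (1 * (k % ℓ) + k / ℓ * ℓ) (ℓ * m) := by
          have h := hy'.mul hx'
          rwa [ZMod.val_cast_of_lt (Nat.mod_lt _ hℓ.pos), ZMod.val_cast_of_lt hkm,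
            mul_comm m ℓ] at h
        refine hyx.exists_eq_mul (hx.mul hy) ⟨0, ?_⟩
        rw [one_mul (k % ℓ), Nat.mod_add_div' k ℓ]
        push_cast [k]
        ring
      · exact absurd hb (OnePoint.coe_ne_infty _)
    · exact absurd ha (OnePoint.coe_ne_infty _)
  · have hcop : Nat.Coprime m ℓ := (Nat.coprime_primes hm hℓ).mpr fun h => hne h.symm
    let u : ZMod ℓ := (m : ZMod ℓ)⁻¹ * j
    let y' : Idx N m := ⟨∞, fun h => absurd h hmN⟩
    let x' : Idx N ℓ := ⟨u, fun _ => OnePoint.coe_ne_infty _⟩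
    refine ⟨(y', x'), ?_⟩
    rcases rep_cases y' with ⟨a, ha, -⟩ | ⟨-, -, hy'⟩
    · exact absurd ha.symm (OnePoint.coe_ne_infty a)
    · rcases rep_cases x' with ⟨b, hb, hx'⟩ | ⟨hb, -, -⟩
      · obtain rfl : u = b := OnePoint.coe_injective hb
        have hyx : IsTri (rep y' * rep x') (1 * m) (m * u.val + 0 * ℓ) (ℓ * 1) := by
          simpa [mul_comm] using hy'.mul hx'
        refine hyx.exists_eq_mul (hx.mul hy) ?_
        simp only [mul_one, mul_zero, zero_add, zero_mul, add_zero]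
        rw [← ZMod.intCast_zmod_eq_zero_iff_dvd]
        push_cast
        rw [ZMod.natCast_zmod_val, ZMod.natCast_zmod_val, ← mul_assoc]
        rw [ZMod.coe_mul_inv_eq_one _ hcop, one_mul, sub_self]
      · exact absurd hb (OnePoint.coe_ne_infty _)
  · let v : ZMod m := (ℓ * i.val : ℕ)
    let y' : Idx N m := ⟨v, fun _ => OnePoint.coe_ne_infty _⟩
    let x' : Idx N ℓ := ⟨∞, fun h => absurd h hℓN⟩
    refine ⟨(y', x'), ?_⟩
    rcases rep_cases y' with ⟨a, ha, hy'⟩ | ⟨ha, -, -⟩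
    · rcases rep_cases x' with ⟨b, hb, -⟩ | ⟨-, -, hx'⟩
      · exact absurd hb.symm (OnePoint.coe_ne_infty b)
      · obtain rfl : v = a := OnePoint.coe_injective ha
        have hyx : IsTri (rep y' * rep x') (ℓ * 1) (1 * 0 + v.val * 1) (1 * m) := by
          simpa [mul_comm] using hy'.mul hx'
        refine hyx.exists_eq_mul (hx.mul hy) ?_
        simp only [mul_one, one_mul, mul_zero, zero_add, zero_mul, add_zero]
        rw [← ZMod.intCast_zmod_eq_zero_iff_dvd]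
        push_cast
        rw [ZMod.natCast_zmod_val, ZMod.natCast_zmod_val]
        simp [v]
    · exact absurd ha (OnePoint.coe_ne_infty _)
  · let y' : Idx N m := ⟨∞, fun h => absurd h hmN⟩
    let x' : Idx N ℓ := ⟨∞, fun h => absurd h hℓN⟩
    refine ⟨(y', x'), ?_⟩
    rcases rep_cases y' with ⟨a, ha, -⟩ | ⟨-, -, hy'⟩
    · exact absurd ha.symm (OnePoint.coe_ne_infty a)
    · rcases rep_cases x' with ⟨b, hb, -⟩ | ⟨-, -, hx'⟩
      · exact absurd hb.symm (OnePoint.coe_ne_infty b)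
      · have hyx : IsTri (rep y' * rep x') (ℓ * m) 0 (1 * 1) := by
          simpa [mul_comm] using hy'.mul hx'
        refine hyx.exists_eq_mul (hx.mul hy) ?_
        simp

/-- The products of representatives for `ℓ` and `m` agree up to order and `Γ₀(N)`. -/
theorem exists_swap_equiv (hne : ℓ ≠ m) :
    ∃ e : Idx N ℓ × Idx N m ≃ Idx N m × Idx N ℓ, ∀ p, ∃ g : Gamma0 N,
      rep p.1 * rep p.2 = mapGL ℝ (g : SL(2, ℤ)) * (rep (e p).1 * rep (e p).2) := by
  choose f g hfg using fun p : Idx N ℓ × Idx N m => exists_swap hne p.1 p.2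
  have hinj : Function.Injective f := by
    intro p q hpq
    obtain ⟨h1, h2⟩ := rep_rep_unique hne ((g q * (g p)⁻¹ : Gamma0 N) : SL(2, ℤ))
      (show _ * (rep p.1 * rep p.2) = rep q.1 * rep q.2 by
        rw [hfg p, hfg q, Subgroup.coe_mul, Subgroup.coe_inv, map_mul, map_inv, mul_assoc,
          inv_mul_cancel_left, hpq])
    exact Prod.ext h1 h2
  have : NeZero ℓ := ⟨(Fact.out : ℓ.Prime).ne_zero⟩
  have : NeZero m := ⟨(Fact.out : m.Prime).ne_zero⟩
  have hbij : Function.Bijective f :=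
    (Fintype.bijective_iff_injective_and_card f).mpr
      ⟨hinj, by rw [Fintype.card_prod, Fintype.card_prod, mul_comm]⟩
  exact ⟨Equiv.ofBijective f hbij, fun p => ⟨g p, hfg p⟩⟩

end Product

end Fermat.Agent.HeckeJ0
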