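import Fermat.Agent.HeckeJ0.Model
import Fermat.Agent.J0Torsion.Twist

/-!
# Multipliers of roots under the Hecke norm
-/

set_option autoImplicit false
set_option linter.style.haveILetI false

noncomputable section

open Matrix.SpecialLinearGroup CongruenceSubgroup UpperHalfPlane
open scoped MatrixGroups
open AlgebraicCurve ModularCurve
open Fermat.Agent.X0Analytic

namespace Fermat.Agent.HeckeJ0

local notation "ℚbar" => AlgebraicClosure ℚ

/-- the constants inside the meromorphic functions -/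
def constMer : ℂ →+* Mer := (algebraMap Hol Mer).comp (algebraMap ℂ Hol)

theorem act_constMer {g : GL (Fin 2) ℝ} (hg : 0 < g.det.val) (c : ℂ) :
    act g (constMer c) = constMer c := act_const hg c

/-- roots of unity in the meromorphic functions are constants -/
theorem exists_constMer_of_pow_eq_one {n : ℕ} (hn : n ≠ 0) {u : Mer} (hu : u ^ n = 1) :
    ∃ c : ℂ, c ^ n = 1 ∧ constMer c = u := by
  haveI : NeZero n := ⟨hn⟩
  have hζ := Complex.isPrimitiveRoot_exp n hn
  obtain ⟨i, -, hi⟩ := (hζ.map_of_injective (f := constMer) constMer.injective).eq_pow_of_pow_eq_one hu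
  exact ⟨_ ^ i, by rw [← pow_mul, mul_comm, pow_mul, hζ.pow_eq_one, one_pow], by rw [map_pow, hi]⟩

theorem exists_mul_of_pow_eq {n : ℕ} (hn : n ≠ 0) {r s : Mer} (hs : s ≠ 0) (h : r ^ n = s ^ n) :
    ∃ c : ℂ, r = constMer c * s := by
  obtain ⟨c, -, hc⟩ := exists_constMer_of_pow_eq_one hn (u := r / s)
    (by rw [div_pow, h, div_self (pow_ne_zero n hs)])
  exact ⟨c, by rw [hc, div_mul_cancel₀ r hs]⟩

section Model

variable {N n : ℕ} [NeZero N] (φ : ℚbar →+* ℂ)

/-- a modular function as a meromorphic function -/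
def modMer (N : ℕ) [NeZero N] : ↥(modFun N) →+* Mer :=
  (algebraMap Hol Mer).comp (modToHol N).toRingHom

theorem modMer_injective : Function.Injective (modMer N) :=
  (IsFractionRing.injective Hol Mer).comp modToHol_injective

theorem toMer_mul_modMer (y : modularFunctionFieldBar N) {a b : ↥(modFun N)}
    (h : coeffMap φ (y : LaurentSeries ℚbar) * ser N b = ser N a) :
    toMer (L := ℚbar) (N := N) φ y * modMer N b = modMer N a := by
  obtain ⟨a₀, b₀, hb₀, hab⟩ := exists_div ℚbar N y
  have hser : coeffMap φ (y : LaurentSeries ℚbar) * ser N (toModFun φ b₀) =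
      ser N (toModFun φ a₀) := by
    rw [ser_toModFun, ser_toModFun, ← map_mul]
    exact congrArg _ (congrArg (fun z : ↥(FLevel ℚbar N) => (z : LaurentSeries ℚbar)) hab)
  have hcross : a * toModFun φ b₀ = toModFun φ a₀ * b := ser_injective (by
    rw [map_mul, map_mul, ← h, ← hser]; ring)
  have hb : modMer N (toModFun φ b₀) ≠ 0 :=
    (map_ne_zero_iff _ modMer_injective).mpr
      ((map_ne_zero_iff _ (toModFun_injective φ)).mpr hb₀)
  have hA : ∀ c, toMer φ (algToField ℚbar N c) = modMer N (toModFun φ c) :=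
    fun c => fieldHom_algToField φ _ _ c
  have h₀ : toMer φ y * modMer N (toModFun φ b₀) = modMer N (toModFun φ a₀) := by
    rw [← hA, ← hA, ← map_mul]
    exact congrArg _ hab
  refine mul_right_cancel₀ hb ?_
  rw [← map_mul (modMer N) a, hcross, map_mul, ← h₀]
  ring

/-- A root of an element with a multiplier transforms by that multiplier. -/
theorem exists_root (hn : n ≠ 0) {χ : Gamma0 N →* ℂ} {y : modularFunctionFieldBar N}
    (h : J0Torsion.HasChar N n (coeffMap φ (y : LaurentSeries ℚbar)) χ) :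
    ∃ r : Mer, r ≠ 0 ∧ r ^ n = toMer φ y ∧
      ∀ γ : Gamma0 N, act (mapGL ℝ (γ : SL(2, ℤ))) r = constMer (χ γ) * r := by
  obtain ⟨G, b, a, hG, hG0, hb, ha, hf⟩ := h
  let GH : Hol := ⟨G, mem_holFun.mpr (J0Torsion.twFun_mdiff hG)⟩
  have hGH : algebraMap Hol Mer GH ≠ 0 :=
    (map_ne_zero_iff _ (IsFractionRing.injective Hol Mer)).mpr fun h0 => hG0 (congrArg Subtype.val h0)
  have hbM : modMer N b ≠ 0 := (map_ne_zero_iff _ modMer_injective).mpr hb
  refine ⟨algebraMap Hol Mer GH / modMer N b, div_ne_zero hGH hbM, ?_, fun γ => ?_⟩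
  · have hmul := toMer_mul_modMer φ y hf
    rw [map_pow] at hmul
    have haG : modMer N a = algebraMap Hol Mer GH ^ n := by
      rw [← map_pow]
      have hGn : modToHol N a = GH ^ n := Subtype.ext (ha.trans (by rw [SubmonoidClass.coe_pow]))
      exact congrArg (algebraMap Hol Mer) hGn
    rw [div_pow, ← haG, ← hmul, mul_div_assoc, div_self (pow_ne_zero n hbM), mul_one]
  · have hpos := det_pos_mapGL (γ : SL(2, ℤ))
    have hGγ : preComp (mapGL ℝ (γ : SL(2, ℤ))) hpos GH = algebraMap ℂ Hol (χ γ) * GH :=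
      Subtype.ext (funext fun τ => J0Torsion.twFun_smul hG γ τ)
    have hbγ : preComp (mapGL ℝ (γ : SL(2, ℤ))) hpos (modToHol N b) = modToHol N b :=
      Subtype.ext (funext fun τ => b.2.2.1 γ γ.2 τ)
    rw [map_div₀, act_algebraMap hpos, hGγ, map_mul, mul_div_assoc]
    refine congrArg₂ (· * ·) rfl (congrArg₂ (· / ·) rfl ?_)
    show act _ (algebraMap Hol Mer (modToHol N b)) = _
    rw [act_algebraMap hpos, hbγ]
    rfl

/-- The multiplier of the Hecke norm is the transfer of the multiplier. -/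
theorem char_normAlong_beta (ℓ : ℕ) [Fact ℓ.Prime] [NeZero ℓ] (hn : n ≠ 0)
    {χ χ' : Gamma0 N →* ℂ} {y : modularFunctionFieldBar N}
    (h : J0Torsion.HasChar N n (coeffMap φ (y : LaurentSeries ℚbar)) χ)
    (h' : J0Torsion.HasChar N n (coeffMap φ
      ((normAlong (heckeAlphaBar ℚbar N ℓ) (heckeBetaBar ℚbar N ℓ y) : modularFunctionFieldBar N) :
        LaurentSeries ℚbar)) χ')
    (γ : Gamma0 N) :
    χ' (frickeConj γ) = ∏ x : Idx N ℓ, χ (frickeConj (gOf x γ)) := by
  obtain ⟨r, hr0, hr, hract⟩ := exists_root φ hn h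
  obtain ⟨r', hr'0, hr', hr'act⟩ := exists_root φ hn h'
  have hW := det_pos_fricke N
  have key : ∀ (ψ : Gamma0 N →* ℂ) (s : Mer),
      (∀ g : Gamma0 N, act (mapGL ℝ (g : SL(2, ℤ))) s = constMer (ψ g) * s) →
      ∀ g : Gamma0 N, act (mapGL ℝ (g : SL(2, ℤ))) (act (fricke N) s) =
        constMer (ψ (frickeConj g)) * act (fricke N) s := by
    intro ψ s hs g
    rw [← act_mul hW (det_pos_mapGL _), ← frickeConj_mul_fricke, act_mul (det_pos_mapGL _) hW,
      hs, map_mul, act_constMer hW]
  set R : Mer := ∏ x : Idx N ℓ, act (rep x) (act (fricke N) r) with hR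
  have hRn : act (fricke N) r' ^ n = R ^ n := by
    rw [← map_pow, hr', hR, ← Finset.prod_pow]
    refine ((merModel φ).ιW_normAlong_beta N ℓ (degreeAlpha N ℓ) y).trans
      (Finset.prod_congr rfl fun x _ => ?_)
    rw [← map_pow, ← map_pow, hr]
    rfl
  have hR0 : R ≠ 0 := Finset.prod_ne_zero_iff.mpr fun x _ =>
    (map_ne_zero _).mpr ((map_ne_zero _).mpr hr0)
  obtain ⟨c, hc⟩ := exists_mul_of_pow_eq hn hR0 hRn
  have hRγ : act (mapGL ℝ (γ : SL(2, ℤ))) R =
      constMer (∏ x : Idx N ℓ, χ (frickeConj (gOf x γ))) * R := by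
    rw [hR, map_prod, map_prod, ← Equiv.prod_comp (permOf γ) fun x => act (rep x) (act (fricke N) r),
      ← Finset.prod_mul_distrib]
    refine Finset.prod_congr rfl fun x _ => ?_
    rw [← act_mul (det_pos_rep x) (det_pos_mapGL _), rep_mul, act_mul (det_pos_mapGL _) (det_pos_rep _),
      key χ r hract, map_mul, act_constMer (det_pos_rep _)]
  have h1 := key χ' r' hr'act γ
  rw [hc, map_mul, act_constMer (det_pos_mapGL _), hRγ] at h1
  have hc0 : constMer c ≠ 0 := fun h0 =>
    (map_ne_zero (act (fricke N))).mpr hr'0 (by rw [hc, h0, zero_mul])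
  refine constMer.injective (mul_right_cancel₀ (mul_ne_zero hc0 hR0) ?_)
  rw [← h1]
  ring

end Model

end Fermat.Agent.HeckeJ0
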