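import Fermat.Agent.HeckeJ0.Inputs
import Fermat.Agent.HeckeJ0.RootChar
import Fermat.Agent.HeckeJ0.Coh

/-!
# Multipliers of torsion classes and the Hecke operators
-/

set_option autoImplicit false
set_option linter.style.haveILetI false

noncomputable section

open Matrix.SpecialLinearGroup CongruenceSubgroup
open scoped MatrixGroups
open AlgebraicCurve ModularCurve

namespace Fermat.Agent.HeckeJ0

local notation "ℚbar" => AlgebraicClosure ℚ

variable {N : ℕ} [NeZero N]

theorem stdAddChar_sum {n : ℕ} [NeZero n] {ι : Type*} [Fintype ι] (f : ι → ZMod n) :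
    ZMod.stdAddChar (∑ i, f i) = ∏ i, ZMod.stdAddChar (f i) := by
  classical
  induction (Finset.univ : Finset ι) using Finset.induction with
  | empty => simp
  | insert a s ha ih => rw [Finset.sum_insert ha, Finset.prod_insert ha, AddChar.map_add_eq_mul, ih]

/-- the multiplier of a homomorphism to `ℤ/n` -/
def expChar (n : ℕ) [NeZero n] (ψ : Additive (Gamma0 N) →+ ZMod n) : Gamma0 N →* ℂ where
  toFun γ := ZMod.stdAddChar (ψ (Additive.ofMul γ))
  map_one' := by rw [ofMul_one, map_zero, AddChar.map_zero_eq_one]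
  map_mul' γ δ := by rw [ofMul_mul, map_add, AddChar.map_add_eq_mul]

theorem expChar_apply (n : ℕ) [NeZero n] (ψ : Additive (Gamma0 N) →+ ZMod n) (γ : Gamma0 N) :
    expChar n ψ γ = ZMod.stdAddChar (ψ (Additive.ofMul γ)) := rfl

theorem expChar_injective (n : ℕ) [NeZero n] :
    Function.Injective (expChar (N := N) n) := fun ψ ψ' h => AddMonoidHom.ext fun g =>
  ZMod.injective_stdAddChar (DFunLike.congr_fun h (Additive.toMul g))

/-- `ψ` is the monodromy of the `n`-torsion class `x`: for every divisor `D` representing `x`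
with `n D = div f`, the multiplier of an `n`-th root of `f` is `exp (2πi ψ / n)`. -/
def IsMonodromy (φ : ℚbar →+* ℂ) (n : ℕ) [NeZero n] (x : JZero N)
    (ψ : Additive (Gamma0 N) →+ ZMod n) : Prop :=
  ∀ (D : Divisor.degZero (K := ℚbar) (F := modularFunctionFieldBar N))
    (f : modularFunctionFieldBar N), Pic0.mk D = x → f ≠ 0 →
    (∀ v, (n : ℤ) * (D : Divisor ℚbar (modularFunctionFieldBar N)) v = v.ord f) →
    J0Torsion.HasChar N n (coeffMap φ (f : LaurentSeries ℚbar)) (expChar n ψ)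

theorem exists_divisor_function {n : ℕ} {x : JZero N}
    (hx : x ∈ Pic0.torsion ℚbar (modularFunctionFieldBar N) n) :
    ∃ (D : Divisor.degZero (K := ℚbar) (F := modularFunctionFieldBar N))
      (f : modularFunctionFieldBar N), Pic0.mk D = x ∧ f ≠ 0 ∧
      ∀ v, (n : ℤ) * (D : Divisor ℚbar (modularFunctionFieldBar N)) v = v.ord f := by
  obtain ⟨D, rfl⟩ := Pic0.mk_surjective x
  have h : ((n : ℤ) • D : Divisor.degZero (K := ℚbar) (F := modularFunctionFieldBar N)) ∈
      (Divisor.principal (K := ℚbar) (F := modularFunctionFieldBar N)).addSubgroupOf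
        (Divisor.degZero (K := ℚbar) (F := modularFunctionFieldBar N)) :=
    (QuotientAddGroup.eq_zero_iff _).mp (Pic0.mem_torsion.mp hx)
  obtain ⟨f, hf, hD⟩ := AddSubgroup.mem_addSubgroupOf.mp h
  refine ⟨D, f, rfl, hf, fun v => ?_⟩
  rw [← hD v]
  simp [Finsupp.smul_apply]

variable (φ : ℚbar →+* ℂ) {n : ℕ} [NeZero n]

/-- The Hecke operator transfers the monodromy, after twisting by `W_N`. -/
theorem monodromy_heckeAlong (l : ℕ) [Fact l.Prime] [NeZero l] {x y : JZero N}
    (hx : x ∈ Pic0.torsion ℚbar (modularFunctionFieldBar N) n)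
    (hy : y = heckeOperatorAlong ℚbar N l x) {ψ ψ' : Additive (Gamma0 N) →+ ZMod n}
    (h : IsMonodromy φ n x ψ) (h' : IsMonodromy φ n y ψ') :
    frickeTwist ψ' = cohHecke l (frickeTwist ψ) := by
  haveI := hasPrincipalDivisors_bar (N * l)
  obtain ⟨D, f, hD, hf, hDf⟩ := exists_divisor_function hx
  set f' := normAlong (heckeAlphaBar ℚbar N l) (heckeBetaBar ℚbar N l f) with hf'
  have hf'0 : f' ≠ 0 := normAlong_ne_zero (alphaFinite N l)
    ((map_ne_zero (heckeBetaBar ℚbar N l)).mpr hf)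
  let D' := Pic0.degZeroCorrespondence (heckeBetaBar ℚbar N l) (heckeAlphaBar ℚbar N l)
    (betaIntegral N l) (alphaIntegral N l) (betaFundamental N l) D
  have hy' : Pic0.mk D' = y := by
    rw [hy, heckeOperatorAlong_bar_eq N l, ← hD]
    exact (Pic0.correspondence_mk _ _ _ _ _ _ _ _).symm
  have hcoe : (D' : Divisor ℚbar (modularFunctionFieldBar N)) =
      Divisor.correspondence (heckeBetaBar ℚbar N l) (heckeAlphaBar ℚbar N l)
        (betaIntegral N l) (alphaIntegral N l) (D : Divisor ℚbar (modularFunctionFieldBar N)) := rfl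
  have hD'f' : ∀ v, (n : ℤ) * (D' : Divisor ℚbar (modularFunctionFieldBar N)) v = v.ord f' := by
    intro v
    rw [hf', ← correspondence_apply_eq_ord (heckeBetaBar ℚbar N l)
      (heckeAlphaBar ℚbar N l) (betaIntegral N l) (alphaIntegral N l)
      (alphaFinite N l) (alphaNormFormula N l) hf
      (D := (n : ℤ) • (D : Divisor ℚbar (modularFunctionFieldBar N)))
      (fun w => by rw [Finsupp.smul_apply, smul_eq_mul]; exact hDf w) v,
      hcoe, map_zsmul, Finsupp.smul_apply, smul_eq_mul]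
  have hc := h D f hD hf hDf
  have hc' := h' D' f' hy' hf'0 hD'f'
  refine AddMonoidHom.ext fun g => ?_
  obtain ⟨γ, rfl⟩ := Additive.ofMul.surjective g
  refine ZMod.injective_stdAddChar ?_
  rw [cohHecke_apply, stdAddChar_sum]
  exact char_normAlong_beta φ l (NeZero.ne n) hc hc' γ

/-- The Hecke operator transfers the monodromy, after twisting by `W_N`. -/
theorem monodromy_hecke (ℓ : Nat.Primes) [Fact (ℓ : ℕ).Prime] [NeZero (ℓ : ℕ)] {x y : JZero N}
    (hx : x ∈ Pic0.torsion ℚbar (modularFunctionFieldBar N) n)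
    (hy : y = heckeOperatorBar N ℓ x) {ψ ψ' : Additive (Gamma0 N) →+ ZMod n}
    (h : IsMonodromy φ n x ψ) (h' : IsMonodromy φ n y ψ') :
    frickeTwist ψ' = cohHecke (ℓ : ℕ) (frickeTwist ψ) :=
  monodromy_heckeAlong φ (ℓ : ℕ) hx (hy.trans (heckeOperatorBar_apply N ℓ x)) h h'

/-- Compatibility of monodromy with multiplication by `m`. -/
theorem monodromy_mul {m : ℕ} [NeZero m] {x y : JZero N}
    (hx : x ∈ Pic0.torsion ℚbar (modularFunctionFieldBar N) (m * n)) (hy : y = m • x)
    {ψ : Additive (Gamma0 N) →+ ZMod (m * n)} {ψ' : Additive (Gamma0 N) →+ ZMod n}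
    (h : IsMonodromy φ (m * n) x ψ) (h' : IsMonodromy φ n y ψ') :
    ψ' = (ZMod.castHom (dvd_mul_left n m) (ZMod n)).toAddMonoidHom.comp ψ := by
  obtain ⟨D, f, hD, hf, hDf⟩ := exists_divisor_function hx
  have hy' : Pic0.mk (m • D) = y := by
    rw [hy, ← hD]; rfl
  have hc := (h D f hD hf hDf).of_mul (n := n) m
  have hc' := h' (m • D) f hy' hf fun v => by
    rw [← hDf v, AddSubgroup.coe_nsmul, Finsupp.smul_apply, nsmul_eq_mul, Nat.cast_mul]
    ring
  refine expChar_injective n ((hc'.unique (NeZero.ne n) hc).trans ?_)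
  refine MonoidHom.ext fun γ => ?_
  rw [MonoidHom.pow_apply, expChar_apply, expChar_apply]
  obtain ⟨k, hk⟩ := ZMod.intCast_surjective (ψ (Additive.ofMul γ))
  show _ = ZMod.stdAddChar (ZMod.castHom (dvd_mul_left n m) (ZMod n) (ψ (Additive.ofMul γ)))
  rw [← hk, map_intCast (ZMod.castHom (dvd_mul_left n m) (ZMod n)), ZMod.stdAddChar_coe,
    ZMod.stdAddChar_coe, ← Complex.exp_nat_mul]
  congr 1
  have hn : (n : ℂ) ≠ 0 := Nat.cast_ne_zero.mpr (NeZero.ne n)
  have hm : (m : ℂ) ≠ 0 := Nat.cast_ne_zero.mpr (NeZero.ne m)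
  push_cast
  field_simp

end Fermat.Agent.HeckeJ0
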